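import Fermat.Agent.AllSemistable.ModelTwo
import Fermat.Agent.LT.Switch.Forms

/-!
# Parameters of the Hesse pencil at `2`

For a model with odd discriminant, explicit `2`-adic classes of parameters give a member with trace
`±2` at `2` if the model is ordinary there, an ordinary one if its trace is `±2`, and one
multiplicative at `2` if its trace is `0`.
-/

set_option autoImplicit false

open WeierstrassCurve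

namespace Fermat.Agent.AllSemistable

open Fermat.Agent.LT.Switch

/-- A congruence class of parameters has the invariants of its centre to high precision. -/
theorem near_center {c e ta a b P₀ C₀ E₀ : ℤ} (hP₀ : hP c e ta 1 = 256 * P₀)
    (hC₀ : hC4 c e ta 1 = 4 ^ 4 * C₀) (hE₀ : hC6 c e ta 1 = 4 ^ 6 * E₀)
    (ha : (2 : ℤ) ^ 24 ∣ a - ta) (hb : (2 : ℤ) ^ 24 ∣ b - 1) :
    ∃ c₁ e₁ w : ℤ, hC4 c e a b = 4 ^ 4 * c₁ ∧ hC6 c e a b = 4 ^ 6 * e₁ ∧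
      hP c e a b = 256 * w ∧ c₁ % 32 = C₀ % 32 ∧ e₁ % 32 = E₀ % 32 ∧ w % 32 = P₀ % 32 := by
  have ha' : Int.ModEq (2 ^ 24) a ta := (Int.modEq_iff_dvd.mpr ha).symm
  have hb' : Int.ModEq (2 ^ 24) b 1 := (Int.modEq_iff_dvd.mpr hb).symm
  have key : ∀ {x y : ℤ}, Int.ModEq (2 ^ 24) x y → (2 : ℤ) ^ 24 ∣ x - y :=
    fun h => Int.modEq_iff_dvd.mp h.symm
  obtain ⟨p, hp⟩ := key (show Int.ModEq _ (hP c e a b) (hP c e ta 1) by simp only [hP]; gcongr)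
  obtain ⟨s, hs⟩ := key (show Int.ModEq _ (hC4 c e a b) (hC4 c e ta 1) by simp only [hC4]; gcongr)
  obtain ⟨t, ht⟩ := key (show Int.ModEq _ (hC6 c e a b) (hC6 c e ta 1) by simp only [hC6]; gcongr)
  exact ⟨C₀ + 65536 * s, E₀ + 4096 * t, P₀ + 65536 * p, by linear_combination hs + hC₀,
    by linear_combination ht + hE₀, by linear_combination hp + hP₀, by omega, by omega, by omega⟩

/-- The centre for `a₁` odd, when `j` in the normal form is even. -/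
theorem center_ordinary_even (i l n : ℤ) :
    (∃ k, hP ((1 + 4 * i) ^ 2 - 48 * (2 * l))
      (-(1 + 4 * i) ^ 3 + 72 * (1 + 4 * i) * (2 * l) - 864 * (1 + (2 * l) + 2 * n)) 
      (1 + 4 * i + 8 * (2 * l)) 1 = 256 * (1 + 2 * k)) ∧
      (∃ k, hC4 ((1 + 4 * i) ^ 2 - 48 * (2 * l))
      (-(1 + 4 * i) ^ 3 + 72 * (1 + 4 * i) * (2 * l) - 864 * (1 + (2 * l) + 2 * n)) 
      (1 + 4 * i + 8 * (2 * l)) 1 = 4 ^ 4 * (16 + 32 * k)) ∧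
      ∃ k, hC6 ((1 + 4 * i) ^ 2 - 48 * (2 * l))
      (-(1 + 4 * i) ^ 3 + 72 * (1 + 4 * i) * (2 * l) - 864 * (1 + (2 * l) + 2 * n)) 
      (1 + 4 * i + 8 * (2 * l)) 1 = 4 ^ 6 * (8 + 32 * k) := by
  refine ⟨⟨13 + 27 * n + 243 * l + 432 * l * n + 378 * l ^ 2 + 320 * l ^ 3 + 128 * l ^ 4 + 54 * i
        + 108 * i * n + 108 * i * l + 128 * i * l ^ 3, ?_⟩,
    ⟨364 + 1458 * n + 1458 * n ^ 2 + 1350 * l + 2700 * l * n + 1566 * l ^ 2 + 648 * l ^ 2 * n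
        - 648 * l ^ 3 - 3456 * l ^ 3 * n - 1624 * l ^ 4 - 768 * l ^ 5 - 540 * i * l
        - 1080 * i * l * n - 2376 * i * l ^ 2 - 2592 * i * l ^ 2 * n - 2160 * i * l ^ 3
        + 448 * i * l ^ 4 - 432 * i ^ 2 * l - 864 * i ^ 2 * l * n - 864 * i ^ 2 * l ^ 2
        + 128 * i ^ 2 * l ^ 4, ?_⟩,
    ⟨39548 + 236925 * n + 473121 * n ^ 2 + 314928 * n ^ 3 + 228177 * l + 911250 * l * n
        + 909792 * l * n ^ 2 + 629127 * l ^ 2 + 1641708 * l ^ 2 * n + 769824 * l ^ 2 * n ^ 2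
        + 1490940 * l ^ 3 + 3360960 * l ^ 3 * n + 1866240 * l ^ 3 * n ^ 2 + 2347812 * l ^ 4
        + 3240000 * l ^ 4 * n + 2184192 * l ^ 5 + 1161216 * l ^ 5 * n + 1082752 * l ^ 6
        - 221184 * l ^ 6 * n + 239616 * l ^ 7 + 2187 * i + 8748 * i * n + 8748 * i * n ^ 2
        - 8748 * i * l - 52488 * i * l * n - 69984 * i * l * n ^ 2 + 277020 * i * l ^ 2
        + 1236384 * i * l ^ 2 * n + 1399680 * i * l ^ 2 * n ^ 2 + 959040 * i * l ^ 3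
        + 2104704 * i * l ^ 3 * n + 613008 * i * l ^ 4 - 207360 * i * l ^ 4 * n
        - 183168 * i * l ^ 5 - 331776 * i * l ^ 5 * n - 213504 * i * l ^ 6 + 73728 * i * l ^ 7
        + 8748 * i ^ 2 + 34992 * i ^ 2 * n + 34992 * i ^ 2 * n ^ 2 + 104976 * i ^ 2 * l
        + 349920 * i ^ 2 * l * n + 279936 * i ^ 2 * l * n ^ 2 + 291600 * i ^ 2 * l ^ 2
        + 513216 * i ^ 2 * l ^ 2 * n + 25920 * i ^ 2 * l ^ 3 - 414720 * i ^ 2 * l ^ 3 * n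
        - 622080 * i ^ 2 * l ^ 4 - 414720 * i ^ 2 * l ^ 4 * n - 345600 * i ^ 2 * l ^ 5
        - 43008 * i ^ 2 * l ^ 6 + 11664 * i ^ 3 + 46656 * i ^ 3 * n + 46656 * i ^ 3 * n ^ 2
        + 46656 * i ^ 3 * l + 93312 * i ^ 3 * l * n + 46656 * i ^ 3 * l ^ 2
        - 69120 * i ^ 3 * l ^ 3 - 138240 * i ^ 3 * l ^ 3 * n - 138240 * i ^ 3 * l ^ 4
        - 8192 * i ^ 3 * l ^ 6, ?_⟩⟩ <;> simp only [hP, hC4, hC6] <;> ring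

/-- The centre for `a₁` odd, when `j` in the normal form is odd. -/
theorem center_ordinary_odd (i l n : ℤ) :
    (∃ k, hP ((1 + 4 * i) ^ 2 - 48 * (2 * l + 1))
      (-(1 + 4 * i) ^ 3 + 72 * (1 + 4 * i) * (2 * l + 1) - 864 * (1 + (2 * l + 1) + 2 * n)) 
      (1 + 4 * i + 8 * (2 * l + 1)) 1 = 256 * (1 + 2 * k)) ∧
      (∃ k, hC4 ((1 + 4 * i) ^ 2 - 48 * (2 * l + 1))
      (-(1 + 4 * i) ^ 3 + 72 * (1 + 4 * i) * (2 * l + 1) - 864 * (1 + (2 * l + 1) + 2 * n)) 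
      (1 + 4 * i + 8 * (2 * l + 1)) 1 = 4 ^ 4 * (16 + 32 * k)) ∧
      ∃ k, hC6 ((1 + 4 * i) ^ 2 - 48 * (2 * l + 1))
      (-(1 + 4 * i) ^ 3 + 72 * (1 + 4 * i) * (2 * l + 1) - 864 * (1 + (2 * l + 1) + 2 * n)) 
      (1 + 4 * i + 8 * (2 * l + 1)) 1 = 4 ^ 6 * (8 + 32 * k) := by
  refine ⟨⟨277 + 243 * n + 925 * l + 432 * l * n + 1050 * l ^ 2 + 576 * l ^ 3 + 128 * l ^ 4
        + 124 * i + 108 * i * n + 204 * i * l + 192 * i * l ^ 2 + 128 * i * l ^ 3, ?_⟩,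
    ⟨1224 + 2538 * n + 1458 * n ^ 2 + 1378 * l + 756 * l * n - 2802 * l ^ 2
        - 4536 * l ^ 2 * n - 5816 * l ^ 3 - 3456 * l ^ 3 * n - 3544 * l ^ 4 - 768 * l ^ 5
        - 1106 * i - 1188 * i * n - 4312 * i * l - 3672 * i * l * n - 4944 * i * l ^ 2
        - 2592 * i * l ^ 2 * n - 1264 * i * l ^ 3 + 448 * i * l ^ 4 - 424 * i ^ 2
        - 432 * i ^ 2 * n - 1232 * i ^ 2 * l - 864 * i ^ 2 * l * n - 672 * i ^ 2 * l ^ 2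
        + 256 * i ^ 2 * l ^ 3 + 128 * i ^ 2 * l ^ 4, ?_⟩,
    ⟨731070 + 1758429 * n + 1353753 * n ^ 2 + 314928 * n ^ 3 + 4061199 * l + 7015086 * l * n
        + 3079296 * l * n ^ 2 + 10289823 * l ^ 2 + 12787308 * l ^ 2 * n
        + 3569184 * l ^ 2 * n ^ 2 + 14878084 * l ^ 3 + 12191040 * l ^ 3 * n
        + 1866240 * l ^ 3 * n ^ 2 + 12916932 * l ^ 4 + 5313600 * l ^ 4 * n + 6690432 * l ^ 5
        + 497664 * l ^ 5 * n + 1921408 * l ^ 6 - 221184 * l ^ 6 * n + 239616 * l ^ 7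
        + 216777 * i + 531360 * i * n + 323676 * i * n ^ 2 + 1204848 * i * l
        + 2555064 * i * l * n + 1329696 * i * l * n ^ 2 + 2254356 * i * l ^ 2
        + 3667680 * i * l ^ 2 * n + 1399680 * i * l ^ 2 * n ^ 2 + 1354656 * i * l ^ 3
        + 860544 * i * l ^ 3 * n - 322992 * i * l ^ 4 - 1036800 * i * l ^ 4 * n
        - 436608 * i * l ^ 5 - 331776 * i * l ^ 5 * n + 44544 * i * l ^ 6 + 73728 * i * l ^ 7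
        + 87024 * i ^ 2 + 260496 * i ^ 2 * n + 174960 * i ^ 2 * n ^ 2 - 11088 * i ^ 2 * l
        + 344736 * i ^ 2 * l * n + 279936 * i ^ 2 * l * n ^ 2 - 1074960 * i ^ 2 * l ^ 2
        - 730944 * i ^ 2 * l ^ 2 * n - 2189760 * i ^ 2 * l ^ 3 - 1244160 * i ^ 2 * l ^ 3 * n
        - 1647360 * i ^ 2 * l ^ 4 - 414720 * i ^ 2 * l ^ 4 * n - 474624 * i ^ 2 * l ^ 5
        - 43008 * i ^ 2 * l ^ 6 + 29248 * i ^ 3 + 76032 * i ^ 3 * n + 46656 * i ^ 3 * n ^ 2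
        - 29184 * i ^ 3 * l - 10368 * i ^ 3 * l * n - 272064 * i ^ 3 * l ^ 2
        - 207360 * i ^ 3 * l ^ 2 * n - 366080 * i ^ 3 * l ^ 3 - 138240 * i ^ 3 * l ^ 3 * n
        - 168960 * i ^ 3 * l ^ 4 - 24576 * i ^ 3 * l ^ 5 - 8192 * i ^ 3 * l ^ 6,
        ?_⟩⟩ <;> simp only [hP,
            hC4, hC6] <;> ring

/-- The centre for trace `0`. -/
theorem center_zero (u v : ℤ) :
    (∃ k, hP (32 * u) (8 * (1 + 4 * v)) 8 1 = 256 * (14 + 4 * k)) ∧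
      (∃ k, hC4 (32 * u) (8 * (1 + 4 * v)) 8 1 = 4 ^ 4 * (65 + 8 * k)) ∧
      ∃ k, hC6 (32 * u) (8 * (1 + 4 * v)) 8 1 = 4 ^ 6 * (671 + 4 * k) := by
  refine ⟨⟨-2 * v - 12 * u - 3 * u ^ 2, ?_⟩,
    ⟨33 * v + 2 * v ^ 2 + 68 * u + 16 * u * v + 192 * u ^ 2 - 48 * u ^ 3, ?_⟩,
    ⟨829 * v + 628 * v ^ 2 - 16 * v ^ 3 + 948 * u + 3744 * u * v - 192 * u * v ^ 2
        + 12768 * u ^ 2 + 1920 * u ^ 2 * v + 144 * u ^ 3 + 576 * u ^ 3 * v + 9216 * u ^ 4,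
        ?_⟩⟩ <;> simp only [hP,
            hC4, hC6] <;> ring

/-- The centre for trace `±2`. -/
theorem center_supersingular (u v : ℤ) :
    (∃ k, hP (16 * (2 * u + 1)) (8 * (1 + 4 * v)) 0 1 = 256 * (-3 + 4 * k)) ∧
      (∃ k, hC4 (16 * (2 * u + 1)) (8 * (1 + 4 * v)) 0 1 = 4 ^ 4 * (-47 + 8 * k)) ∧
      ∃ k, hC6 (16 * (2 * u + 1)) (8 * (1 + 4 * v)) 0 1 = 4 ^ 6 * (71 + 4 * k) := by
  refine ⟨⟨-3 * u - 3 * u ^ 2, ?_⟩,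
    ⟨1 * v + 2 * v ^ 2 - 36 * u - 72 * u ^ 2 - 48 * u ^ 3, ?_⟩,
    ⟨69 * v - 12 * v ^ 2 - 16 * v ^ 3 + 108 * u + 432 * u * v + 216 * u ^ 2 + 864 * u ^ 2 * v
        + 144 * u ^ 3 + 576 * u ^ 3 * v, ?_⟩⟩ <;> simp only [hP, hC4, hC6] <;> ring

/-- Ordinary at `2`: a class of members with trace `±2`. -/
theorem class_two_ordinary (W : WeierstrassCurve ℤ) (h2 : ¬ (2 : ℤ) ∣ W.Δ) (ha : Odd W.a₁) :
    ∃ ta : ℤ, ∀ a b : ℤ, (2 : ℤ) ^ 24 ∣ a - ta → (2 : ℤ) ^ 24 ∣ b - 1 →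
      ∃ c₁ e₁ w : ℤ, hC4 W.c₄ W.c₆ a b = 4 ^ 4 * c₁ ∧ hC6 W.c₄ W.c₆ a b = 4 ^ 6 * e₁ ∧
        hP W.c₄ W.c₆ a b = 256 * w ∧
        Odd w ∧ c₁ % 32 = 16 ∧ e₁ % 32 = 8 := by
  obtain ⟨i, j, n, hc, he⟩ := normal_form_odd W h2 ha
  refine ⟨1 + 4 * i + 8 * j, fun a b ha' hb' => ?_⟩
  obtain ⟨⟨p, hp⟩, ⟨s, hs⟩, t, ht⟩ :
      (∃ k, hP W.c₄ W.c₆ (1 + 4 * i + 8 * j) 1 = 256 * (1 + 2 * k)) ∧
        (∃ k, hC4 W.c₄ W.c₆ (1 + 4 * i + 8 * j) 1 = 4 ^ 4 * (16 + 32 * k)) ∧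
        ∃ k, hC6 W.c₄ W.c₆ (1 + 4 * i + 8 * j) 1 = 4 ^ 6 * (8 + 32 * k) := by
    rw [hc, he]
    rcases Int.even_or_odd' j with ⟨l, rfl | rfl⟩
    · exact center_ordinary_even i l n
    · exact center_ordinary_odd i l n
  obtain ⟨c₁, e₁, w, hC, hE, hw, h4, h6, hP'⟩ := near_center hp hs ht ha' hb'
  exact ⟨c₁, e₁, w, hC, hE, hw, Int.odd_iff.mpr (by omega),
    by omega, by omega⟩

/-- Trace `0` at `2`: a class of members multiplicative at `2`. -/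
theorem class_two_zero (W : WeierstrassCurve ℤ) (h2 : ¬ (2 : ℤ) ∣ W.Δ) (ha : Even W.a₁)
    (hc : (32 : ℤ) ∣ W.c₄) :
    ∃ ta : ℤ, ∀ a b : ℤ, (2 : ℤ) ^ 24 ∣ a - ta → (2 : ℤ) ^ 24 ∣ b - 1 →
      ∃ c₁ e₁ w : ℤ, hC4 W.c₄ W.c₆ a b = 4 ^ 4 * c₁ ∧ hC6 W.c₄ W.c₆ a b = 4 ^ 6 * e₁ ∧
        hP W.c₄ W.c₆ a b = 256 * w ∧
        w % 4 = 2 ∧ Odd c₁ ∧ e₁ % 4 = 3 := by
  obtain ⟨x, v, hx, he⟩ := normal_form_even W h2 ha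
  obtain ⟨u, hu⟩ : ∃ u, W.c₄ = 32 * u := ⟨x / 2, by omega⟩
  refine ⟨8, fun a b ha' hb' => ?_⟩
  obtain ⟨⟨p, hp⟩, ⟨s, hs⟩, t, ht⟩ :
      (∃ k, hP W.c₄ W.c₆ 8 1 = 256 * (14 + 4 * k)) ∧
        (∃ k, hC4 W.c₄ W.c₆ 8 1 = 4 ^ 4 * (65 + 8 * k)) ∧
        ∃ k, hC6 W.c₄ W.c₆ 8 1 = 4 ^ 6 * (671 + 4 * k) := by
    rw [hu, he]; exact center_zero u v
  obtain ⟨c₁, e₁, w, hC, hE, hw, h4, h6, hP'⟩ := near_center hp hs ht ha' hb'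
  exact ⟨c₁, e₁, w, hC, hE, hw, by omega,
    Int.odd_iff.mpr (by omega), by omega⟩

/-- Trace `±2` at `2`: a class of members ordinary at `2`. -/
theorem class_two_supersingular (W : WeierstrassCurve ℤ) (h2 : ¬ (2 : ℤ) ∣ W.Δ) (ha : Even W.a₁)
    (hc : ¬ (32 : ℤ) ∣ W.c₄) :
    ∃ ta : ℤ, ∀ a b : ℤ, (2 : ℤ) ^ 24 ∣ a - ta → (2 : ℤ) ^ 24 ∣ b - 1 →
      ∃ c₁ e₁ w : ℤ, hC4 W.c₄ W.c₆ a b = 4 ^ 4 * c₁ ∧ hC6 W.c₄ W.c₆ a b = 4 ^ 6 * e₁ ∧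
        hP W.c₄ W.c₆ a b = 256 * w ∧
        Odd w ∧ Odd c₁ ∧ e₁ % 4 = 3 := by
  obtain ⟨x, v, hx, he⟩ := normal_form_even W h2 ha
  obtain ⟨u, hu⟩ : ∃ u, W.c₄ = 16 * (2 * u + 1) := ⟨x / 2, by omega⟩
  refine ⟨0, fun a b ha' hb' => ?_⟩
  obtain ⟨⟨p, hp⟩, ⟨s, hs⟩, t, ht⟩ :
      (∃ k, hP W.c₄ W.c₆ 0 1 = 256 * (-3 + 4 * k)) ∧
        (∃ k, hC4 W.c₄ W.c₆ 0 1 = 4 ^ 4 * (-47 + 8 * k)) ∧
        ∃ k, hC6 W.c₄ W.c₆ 0 1 = 4 ^ 6 * (71 + 4 * k) := by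
    rw [hu, he]; exact center_supersingular u v
  obtain ⟨c₁, e₁, w, hC, hE, hw, h4, h6, hP'⟩ := near_center hp hs ht ha' hb'
  exact ⟨c₁, e₁, w, hC, hE, hw, Int.odd_iff.mpr (by omega),
    Int.odd_iff.mpr (by omega), by omega⟩

end Fermat.Agent.AllSemistable
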