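import Fermat.Agent.Switch.Forms

/-!
# The universal forms of the `5`-family of a curve

For icosahedral coordinates `(r, s)` of a curve with invariants `c = fC4 r s`, `e = fC6 r s`,
`d = fD r s ^ 5` and the member `(l r - m fDs r s, l s + m fDr r s)`, the invariants of the member
are forms in `(l, m)` with coefficients in `ℤ[c, e, d]`. `gC4` and `gC6` follow from `gD` by the
Hessian and the Jacobian covariants. The coefficient tables are the
expansions of these forms, cut into summands of at most five terms; they are checked by the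
identities `fD_member`, `hessian_gD` and `jacobian_gD_gC4`.

Main results: `fD_member`, `hessian_gD`, `jacobian_gD_gC4` and `members_two`.
-/

set_option autoImplicit false

namespace Fermat.Agent.AllSemistable.FiveForms

open Fermat.Agent.Switch

noncomputable section

section Ring

variable {R : Type*} [CommRing R]

/-! ## The forms and their derivatives -/

/-- Summand 0 of `gD`. -/
def gDP0 (c e _d l m : R) : R :=
    (1) * l ^ 12
    + (-66 * c) * l ^ 10 * m ^ 2
    + (440 * e) * l ^ 9 * m ^ 3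
    + (-1485 * c ^ 2) * l ^ 8 * m ^ 4
    + (3168 * c * e) * l ^ 7 * m ^ 5

/-- Summand 1 of `gD`. -/
def gDP1 (c e d l m : R) : R :=
    (-4620 * c ^ 3 + 18247680 * d) * l ^ 6 * m ^ 6
    + (4752 * c ^ 2 * e) * l ^ 5 * m ^ 7
    + (-3465 * c ^ 4 - 109486080 * c * d) * l ^ 4 * m ^ 8
    + (1760 * c ^ 3 * e + 243302400 * e * d) * l ^ 3 * m ^ 9
    + (-594 * c ^ 5 - 229920768 * c ^ 2 * d) * l ^ 2 * m ^ 10

/-- Summand 2 of `gD`. -/
def gDP2 (c e d l m : R) : R :=
    (120 * c ^ 4 * e + 106168320 * c * e * d) * l ^ 1 * m ^ 11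
    + (-11 * c ^ 6 - 19464192 * c ^ 3 * d + 305764761600 * d ^ 2) * m ^ 12

/-- The universal discriminant form of the family: `fD (P l m) = fD r s * gD`. -/
def gD (c e d l m : R) : R :=
    gDP0 c e d l m + gDP1 c e d l m + gDP2 c e d l m

/-- Summand 0 of `gC4`. -/
def gC4P0 (c e d l m : R) : R :=
    (1 * c) * l ^ 20
    + (-20 * e) * l ^ 19 * m ^ 1
    + (190 * c ^ 2) * l ^ 18 * m ^ 2
    + (-1140 * c * e) * l ^ 17 * m ^ 3
    + (4845 * c ^ 3 - 9849600 * d) * l ^ 16 * m ^ 4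

/-- Summand 1 of `gC4`. -/
def gC4P1 (c e d l m : R) : R :=
    (-15504 * c ^ 2 * e) * l ^ 15 * m ^ 5
    + (38760 * c ^ 4 + 110315520 * c * d) * l ^ 14 * m ^ 6
    + (-77520 * c ^ 3 * e - 315187200 * e * d) * l ^ 13 * m ^ 7
    + (125970 * c ^ 5 - 1946280960 * c ^ 2 * d) * l ^ 12 * m ^ 8
    + (-167960 * c ^ 4 * e + 13658112000 * c * e * d) * l ^ 11 * m ^ 9

/-- Summand 2 of `gC4`. -/
def gC4P2 (c e d l m : R) : R :=
    (184756 * c ^ 6 - 44921530368 * c ^ 3 * d + 47202435072000 * d ^ 2) * l ^ 10 * m ^ 10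
    + (-167960 * c ^ 5 * e + 94787297280 * c ^ 2 * e * d) * l ^ 9 * m ^ 11
    + (125970 * c ^ 7 - 143563829760 * c ^ 4 * d + 113285844172800 * c * d ^ 2) * l ^ 8 * m ^ 12
    + (-77520 * c ^ 6 * e + 161627996160 * c ^ 3 * e * d - 174285914112000 * e * d ^ 2) *
    l ^ 7 * m ^ 13
    + (38760 * c ^ 8 - 137784084480 * c ^ 5 * d + 858358127001600 * c ^ 2 * d ^ 2) * l ^ 6 * m ^ 14

/-- Summand 3 of `gC4`. -/
def gC4P3 (c e d l m : R) : R :=
    (-15504 * c ^ 7 * e + 88870182912 * c ^ 4 * e * d - 1394287312896000 * c * e * d ^ 2) * l ^ 5 *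
      m ^ 15 + (4845 * c ^ 9 - 42857579520 * c ^ 6 * d + 1584258959278080 * c ^ 3 * d ^ 2
      - 3011660595855360000 * d ^ 3)
        * l ^ 4 * m ^ 16
    + (-1140 * c ^ 8 * e + 15002910720 * c ^ 5 * e * d - 1080572667494400 * c ^ 2 * e * d ^ 2) *
    l ^ 3 * m ^ 17
    + (190 * c ^ 10 - 3608893440 * c ^ 7 * d + 473621971599360 * c ^ 4 * d ^ 2
    + 3212437968912384000 * c * d ^ 3)
        * l ^ 2 * m ^ 18
    + (-20 * c ^ 9 * e + 534159360 * c ^ 6 * e * d - 117413668454400 * c ^ 3 * e * d ^ 2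
        - 3381513651486720000 * e * d ^ 3) * l ^ 1 * m ^ 19

/-- Summand 4 of `gC4`. -/
def gC4P4 (c _e d _l m : R) : R :=
    (1 * c ^ 11 - 36723456 * c ^ 8 * d + 12915503529984 * c ^ 5 * d ^ 2
      + 929916254158848000 * c ^ 2 * d ^ 3) * m ^ 20

/-- The universal form of degree 20 of the family: `fC4 (P l m) = gC4`. -/
def gC4 (c e d l m : R) : R :=
    gC4P0 c e d l m + gC4P1 c e d l m + gC4P2 c e d l m + gC4P3 c e d l m + gC4P4 c e d l m

/-- Summand 0 of `gC6`. -/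
def gC6P0 (c e d l m : R) : R :=
    (1 * e) * l ^ 30
    + (-30 * c ^ 2) * l ^ 29 * m ^ 1
    + (435 * c * e) * l ^ 28 * m ^ 2
    + (-4060 * c ^ 3 + 5011200 * d) * l ^ 27 * m ^ 3
    + (27405 * c ^ 2 * e) * l ^ 26 * m ^ 4

/-- Summand 1 of `gC6`. -/
def gC6P1 (c e d l m : R) : R :=
    (-142506 * c ^ 4 + 81181440 * c * d) * l ^ 25 * m ^ 5
    + (593775 * c ^ 3 * e - 270604800 * e * d) * l ^ 24 * m ^ 6
    + (-2035800 * c ^ 5 + 6765120000 * c ^ 2 * d) * l ^ 23 * m ^ 7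
    + (5852925 * c ^ 4 * e - 24895641600 * c * e * d) * l ^ 22 * m ^ 8
    + (-14307150 * c ^ 6 + 38035008000 * c ^ 3 * d - 95599263744000 * d ^ 2) * l ^ 21 * m ^ 9

/-- Summand 2 of `gC6`. -/
def gC6P2 (c e d l m : R) : R :=
    (30045015 * c ^ 5 * e + 374264478720 * c ^ 2 * e * d) * l ^ 20 * m ^ 10
    + (-54627300 * c ^ 7 - 2708438342400 * c ^ 4 * d + 4359326426726400 * c * d ^ 2) *
    l ^ 19 * m ^ 11
    + (86493225 * c ^ 6 * e + 11194740172800 * c ^ 3 * e * d - 7265544044544000 * e * d ^ 2) *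
    l ^ 18 * m ^ 12
    + (-119759850 * c ^ 8 - 32579058988800 * c ^ 5 * d + 35964443020492800 * c ^ 2 * d ^ 2) *
    l ^ 17 * m ^ 13 + (145422675 * c ^ 7 * e + 74381953190400 * c ^ 4 * e * d) * l ^ 16 * m ^ 14

/-- Summand 3 of `gC6`. -/
def gC6P3 (c e d l m : R) : R :=
    (-155117520 * c ^ 9 - 136970011100160 * c ^ 6 * d + 237147357613916160 * c ^ 3 * d ^ 2) *
      l ^ 15 * m ^ 15 + (145422675 * c ^ 8 * e + 209073598156800 * c ^ 5 * e * d
      - 889302591052185600 * c ^ 2 * e * d ^ 2)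
        * l ^ 14 * m ^ 16
    + (-119759850 * c ^ 10 - 267018203980800 * c ^ 7 * d + 3485281478167756800 * c ^ 4 * d ^ 2
        - 3615799711383945216000 * c * d ^ 3) * l ^ 13 * m ^ 17
    + (86493225 * c ^ 9 * e + 288067468953600 * c ^ 6 * e * d
    - 7881662179521331200 * c ^ 3 * e * d ^ 2
        + 4017555234871050240000 * e * d ^ 3) * l ^ 12 * m ^ 18
    + (-54627300 * c ^ 11 - 263137595846400 * c ^ 8 * d + 14246737639007846400 * c ^ 5 * d ^ 2
        - 22138843846894682112000 * c ^ 2 * d ^ 3) * l ^ 11 * m ^ 19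

/-- Summand 4 of `gC6`. -/
def gC6P4 (c e d l m : R) : R :=
    (30045015 * c ^ 10 * e + 203855471677440 * c ^ 7 * e * d - 19214717810198446080 * c ^ 4 * e *
      d ^ 2 + 17761823143640432640000 * c * e * d ^ 3) * l ^ 10 * m ^ 20
      + (-14307150 * c ^ 12 - 133590358598400 * c ^ 9 * d + 20908591452861235200 * c ^ 6 * d ^ 2
      - 41215887704266584883200 * c ^ 3 * d ^ 3 + 29230886087819683430400000 * d ^ 4) * l ^ 9 *
      m ^ 21 + (5852925 * c ^ 11 * e + 73734666508800 * c ^ 8 * e * d - 17973273419159961600 *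
      c ^ 5 * e * d ^ 2 + 23597850747979431936000 * c ^ 2 * e * d ^ 3) * l ^ 8 * m ^ 22
      + (-2035800 * c ^ 13 - 33996351628800 * c ^ 10 * d + 12476571793647206400 * c ^ 7 * d ^ 2
      - 29446013759435204198400 * c ^ 4 * d ^ 3 - 54903229521470014095360000 * c * d ^ 4) * l ^ 7 *
      m ^ 23 + (593775 * c ^ 12 * e + 12942486374400 * c ^ 9 * e * d - 6877999592688844800 * c ^ 6 *
      e * d ^ 2 + 11627926455526096896000 * c ^ 3 * e * d ^ 3 + 45752691267891678412800000 * e *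
      d ^ 4) * l ^ 6 * m ^ 24

/-- Summand 5 of `gC6`. -/
def gC6P5 (c e d l m : R) : R :=
    (-142506 * c ^ 14 - 3998272513536 * c ^ 11 * d + 3001181670175408128 * c ^ 8 * d ^ 2
        - 8215692682431874203648 * c ^ 5 * d ^ 3 + 162422054001015458365440000 * c ^ 2 * d ^ 4) *
        l ^ 5 * m ^ 25
    + (27405 * c ^ 13 * e + 977532779520 * c ^ 10 * e * d - 1009272850407751680 * c ^ 7 * e * d ^ 2
        + 2081773929940962508800 * c ^ 4 * e * d ^ 3 - 366021530143133427302400000 * c * e *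
        d ^ 4) * l ^ 4 * m ^ 26
    + (-4060 * c ^ 15 - 182045871360 * c ^ 12 * d + 253675112528609280 * c ^ 9 * d ^ 2
        - 788715656681336340480 * c ^ 6 * d ^ 3 + 357616591302809622675456000 * c ^ 3 * d ^ 4
        - 468507558583210786947072000000 * d ^ 5) * l ^ 3 * m ^ 27
    + (435 * c ^ 14 * e + 24270243840 * c ^ 11 * e * d - 44768387043164160 * c ^ 8 * e * d ^ 2
        + 108850924441357516800 * c ^ 5 * e * d ^ 3 - 191144576852525234257920000 * c ^ 2 * e *
        d ^ 4) * l ^ 2 * m ^ 28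
    + (-30 * c ^ 16 - 2063335680 * c ^ 13 * d + 4963496574320640 * c ^ 10 * d ^ 2
    - 17260936434013962240 * c ^ 7 * d ^ 3
        + 55089045049224669954048000 * c ^ 4 * d ^ 4 + 77546078662048681977446400000 * c * d ^ 5) *
        l ^ 1 * m ^ 29

/-- Summand 6 of `gC6`. -/
def gC6P6 (c e d _l m : R) : R :=
    (1 * c ^ 15 * e + 84063744 * c ^ 12 * e * d - 259826663817216 * c ^ 9 * e * d ^ 2
        + 727025435069644800 * c ^ 6 * e * d ^ 3 - 6731430439413948088320000 * c ^ 3 * e * d ^ 4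
        - 51697385774699121318297600000 * e * d ^ 5) * m ^ 30

/-- The universal form of degree 30 of the family: `fC6 (P l m) = gC6`. -/
def gC6 (c e d l m : R) : R :=
    gC6P0 c e d l m + gC6P1 c e d l m + gC6P2 c e d l m + gC6P3 c e d l m + gC6P4 c e d l m
      + gC6P5 c e d l m + gC6P6 c e d l m

/-- Summand 0 of `gDm`. -/
def gDmP0 (c e d l m : R) : R :=
    (-132 * c) * l ^ 10 * m ^ 1
    + (1320 * e) * l ^ 9 * m ^ 2
    + (-5940 * c ^ 2) * l ^ 8 * m ^ 3
    + (15840 * c * e) * l ^ 7 * m ^ 4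
    + (-27720 * c ^ 3 + 109486080 * d) * l ^ 6 * m ^ 5

/-- Summand 1 of `gDm`. -/
def gDmP1 (c e d l m : R) : R :=
    (33264 * c ^ 2 * e) * l ^ 5 * m ^ 6
    + (-27720 * c ^ 4 - 875888640 * c * d) * l ^ 4 * m ^ 7
    + (15840 * c ^ 3 * e + 2189721600 * e * d) * l ^ 3 * m ^ 8
    + (-5940 * c ^ 5 - 2299207680 * c ^ 2 * d) * l ^ 2 * m ^ 9
    + (1320 * c ^ 4 * e + 1167851520 * c * e * d) * l ^ 1 * m ^ 10

/-- Summand 2 of `gDm`. -/
def gDmP2 (c _e d _l m : R) : R :=
    (-132 * c ^ 6 - 233570304 * c ^ 3 * d + 3669177139200 * d ^ 2) * m ^ 11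

/-- `∂gD/∂m`. -/
def gDm (c e d l m : R) : R :=
    gDmP0 c e d l m + gDmP1 c e d l m + gDmP2 c e d l m

/-- Summand 0 of `gDmm`. -/
def gDmmP0 (c e d l m : R) : R :=
    (-132 * c) * l ^ 10
    + (2640 * e) * l ^ 9 * m ^ 1
    + (-17820 * c ^ 2) * l ^ 8 * m ^ 2
    + (63360 * c * e) * l ^ 7 * m ^ 3
    + (-138600 * c ^ 3 + 547430400 * d) * l ^ 6 * m ^ 4

/-- Summand 1 of `gDmm`. -/
def gDmmP1 (c e d l m : R) : R :=
    (199584 * c ^ 2 * e) * l ^ 5 * m ^ 5
    + (-194040 * c ^ 4 - 6131220480 * c * d) * l ^ 4 * m ^ 6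
    + (126720 * c ^ 3 * e + 17517772800 * e * d) * l ^ 3 * m ^ 7
    + (-53460 * c ^ 5 - 20692869120 * c ^ 2 * d) * l ^ 2 * m ^ 8
    + (13200 * c ^ 4 * e + 11678515200 * c * e * d) * l ^ 1 * m ^ 9

/-- Summand 2 of `gDmm`. -/
def gDmmP2 (c _e d _l m : R) : R :=
    (-1452 * c ^ 6 - 2569273344 * c ^ 3 * d + 40360948531200 * d ^ 2) * m ^ 10

/-- `∂²gD/∂m²`. -/
def gDmm (c e d l m : R) : R :=
    gDmmP0 c e d l m + gDmmP1 c e d l m + gDmmP2 c e d l m

/-- Summand 0 of `gC4m`. -/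
def gC4mP0 (c e d l m : R) : R :=
    (-20 * e) * l ^ 19
    + (380 * c ^ 2) * l ^ 18 * m ^ 1
    + (-3420 * c * e) * l ^ 17 * m ^ 2
    + (19380 * c ^ 3 - 39398400 * d) * l ^ 16 * m ^ 3
    + (-77520 * c ^ 2 * e) * l ^ 15 * m ^ 4

/-- Summand 1 of `gC4m`. -/
def gC4mP1 (c e d l m : R) : R :=
    (232560 * c ^ 4 + 661893120 * c * d) * l ^ 14 * m ^ 5
    + (-542640 * c ^ 3 * e - 2206310400 * e * d) * l ^ 13 * m ^ 6
    + (1007760 * c ^ 5 - 15570247680 * c ^ 2 * d) * l ^ 12 * m ^ 7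
    + (-1511640 * c ^ 4 * e + 122923008000 * c * e * d) * l ^ 11 * m ^ 8
    + (1847560 * c ^ 6 - 449215303680 * c ^ 3 * d + 472024350720000 * d ^ 2) * l ^ 10 * m ^ 9

/-- Summand 2 of `gC4m`. -/
def gC4mP2 (c e d l m : R) : R :=
    (-1847560 * c ^ 5 * e + 1042660270080 * c ^ 2 * e * d) * l ^ 9 * m ^ 10
    + (1511640 * c ^ 7 - 1722765957120 * c ^ 4 * d + 1359430130073600 * c * d ^ 2) * l ^ 8 * m ^ 11
    + (-1007760 * c ^ 6 * e + 2101163950080 * c ^ 3 * e * d - 2265716883456000 * e * d ^ 2) *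
    l ^ 7 * m ^ 12
    + (542640 * c ^ 8 - 1928977182720 * c ^ 5 * d + 12017013778022400 * c ^ 2 * d ^ 2) *
    l ^ 6 * m ^ 13
    + (-232560 * c ^ 7 * e + 1333052743680 * c ^ 4 * e * d - 20914309693440000 * c * e * d ^ 2) *
    l ^ 5 * m ^ 14

/-- Summand 3 of `gC4m`. -/
def gC4mP3 (c e d l m : R) : R :=
    (77520 * c ^ 9 - 685721272320 * c ^ 6 * d + 25348143348449280 * c ^ 3 * d ^ 2
      - 48186569533685760000 * d ^ 3)
        * l ^ 4 * m ^ 15
    + (-19380 * c ^ 8 * e + 255049482240 * c ^ 5 * e * d - 18369735347404800 * c ^ 2 * e * d ^ 2) *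
    l ^ 3 * m ^ 16
    + (3420 * c ^ 10 - 64960081920 * c ^ 7 * d + 8525195488788480 * c ^ 4 * d ^ 2
    + 57823883440422912000 * c * d ^ 3)
        * l ^ 2 * m ^ 17
    + (-380 * c ^ 9 * e + 10149027840 * c ^ 6 * e * d - 2230859700633600 * c ^ 3 * e * d ^ 2
        - 64248759378247680000 * e * d ^ 3) * l ^ 1 * m ^ 18
    + (20 * c ^ 11 - 734469120 * c ^ 8 * d + 258310070599680 * c ^ 5 * d ^ 2
        + 18598325083176960000 * c ^ 2 * d ^ 3) * m ^ 19

/-- `∂gC4/∂m`. -/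
def gC4m (c e d l m : R) : R :=
    gC4mP0 c e d l m + gC4mP1 c e d l m + gC4mP2 c e d l m + gC4mP3 c e d l m

/-- The part of `gD` linear in `e`, divided by `e`. -/
private def gDB (c d l m : R) : R :=
    (440) * l ^ 9 * m ^ 3
    + (3168 * c) * l ^ 7 * m ^ 5
    + (4752 * c ^ 2) * l ^ 5 * m ^ 7
    + (1760 * c ^ 3 + 243302400 * d) * l ^ 3 * m ^ 9
    + (120 * c ^ 4 + 106168320 * c * d) * l ^ 1 * m ^ 11

/-- The part of `gDm` linear in `e`, divided by `e`. -/
private def gDmB (c d l m : R) : R :=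
    (1320) * l ^ 9 * m ^ 2
    + (15840 * c) * l ^ 7 * m ^ 4
    + (33264 * c ^ 2) * l ^ 5 * m ^ 6
    + (15840 * c ^ 3 + 2189721600 * d) * l ^ 3 * m ^ 8
    + (1320 * c ^ 4 + 1167851520 * c * d) * l ^ 1 * m ^ 10

/-- The part of `gDmm` linear in `e`, divided by `e`. -/
private def gDmmB (c d l m : R) : R :=
    (2640) * l ^ 9 * m ^ 1
    + (63360 * c) * l ^ 7 * m ^ 3
    + (199584 * c ^ 2) * l ^ 5 * m ^ 5
    + (126720 * c ^ 3 + 17517772800 * d) * l ^ 3 * m ^ 7
    + (13200 * c ^ 4 + 11678515200 * c * d) * l ^ 1 * m ^ 9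

/-- The part of `gC4` linear in `e`, divided by `e`. -/
private def gC4B (c d l m : R) : R :=
    (-20) * l ^ 19 * m ^ 1
    + (-1140 * c) * l ^ 17 * m ^ 3
    + (-15504 * c ^ 2) * l ^ 15 * m ^ 5
    + (-77520 * c ^ 3 - 315187200 * d) * l ^ 13 * m ^ 7
    + (-167960 * c ^ 4 + 13658112000 * c * d) * l ^ 11 * m ^ 9
    + (-167960 * c ^ 5 + 94787297280 * c ^ 2 * d) * l ^ 9 * m ^ 11
    + (-77520 * c ^ 6 + 161627996160 * c ^ 3 * d - 174285914112000 * d ^ 2) * l ^ 7 * m ^ 13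
    + (-15504 * c ^ 7 + 88870182912 * c ^ 4 * d - 1394287312896000 * c * d ^ 2) * l ^ 5 * m ^ 15
    + (-1140 * c ^ 8 + 15002910720 * c ^ 5 * d - 1080572667494400 * c ^ 2 * d ^ 2) * l ^ 3 * m ^ 17
    + (-20 * c ^ 9 + 534159360 * c ^ 6 * d - 117413668454400 * c ^ 3 * d ^ 2
    - 3381513651486720000 * d ^ 3)
        * l ^ 1 * m ^ 19

/-- The part of `gC4m` linear in `e`, divided by `e`. -/
private def gC4mB (c d l m : R) : R :=
    (-20) * l ^ 19
    + (-3420 * c) * l ^ 17 * m ^ 2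
    + (-77520 * c ^ 2) * l ^ 15 * m ^ 4
    + (-542640 * c ^ 3 - 2206310400 * d) * l ^ 13 * m ^ 6
    + (-1511640 * c ^ 4 + 122923008000 * c * d) * l ^ 11 * m ^ 8
    + (-1847560 * c ^ 5 + 1042660270080 * c ^ 2 * d) * l ^ 9 * m ^ 10
    + (-1007760 * c ^ 6 + 2101163950080 * c ^ 3 * d - 2265716883456000 * d ^ 2) * l ^ 7 * m ^ 12
    + (-232560 * c ^ 7 + 1333052743680 * c ^ 4 * d - 20914309693440000 * c * d ^ 2) * l ^ 5 * m ^ 14
    + (-19380 * c ^ 8 + 255049482240 * c ^ 5 * d - 18369735347404800 * c ^ 2 * d ^ 2) *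
    l ^ 3 * m ^ 16
    + (-380 * c ^ 9 + 10149027840 * c ^ 6 * d - 2230859700633600 * c ^ 3 * d ^ 2
    - 64248759378247680000 * d ^ 3)
        * l ^ 1 * m ^ 18

/-! ## The identities -/

theorem fD_member (r s l m : R) :
    fD (l * r - m * fDs r s) (l * s + m * fDr r s)
      = fD r s * gD (fC4 r s) (fC6 r s) (fD r s ^ 5) l m := by
  simp only [fD, fDr, fDs, fC4, fC6, gD, gDP0, gDP1, gDP2]; ring

/-- The Hessian of `gD` along the family. -/
theorem hessian_gD {c e d : R} (h : e ^ 2 = c ^ 3 - 1728 * d) (l m : R) :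
    12 * gD c e d l m * gDmm c e d l m - 11 * gDm c e d l m ^ 2
      = -1584 * l ^ 2 * gC4 c e d l m := by
  linear_combination (norm :=
    (simp only [gD, gDm, gDmm, gC4, gDP0, gDP1, gDP2, gDmP0, gDmP1, gDmP2, gDmmP0, gDmmP1, gDmmP2,
      gC4P0, gC4P1, gC4P2, gC4P3, gC4P4, gDB, gDmB, gDmmB]; ring))
    (12 * gDB c d l m * gDmmB c d l m - 11 * gDmB c d l m ^ 2) * h

/-- The Jacobian of `gD` and `gC4` along the family. -/
theorem jacobian_gD_gC4 {c e d : R} (h : e ^ 2 = c ^ 3 - 1728 * d) (l m : R) :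
    20 * gC4 c e d l m * gDm c e d l m - 12 * gD c e d l m * gC4m c e d l m
      = 240 * l * gC6 c e d l m := by
  linear_combination (norm :=
    (simp only [gD, gDm, gC4, gC4m, gC6, gDP0, gDP1, gDP2, gDmP0, gDmP1, gDmP2, gC4P0, gC4P1, gC4P2,
      gC4P3, gC4P4,
      gC4mP0, gC4mP1, gC4mP2, gC4mP3, gC6P0, gC6P1, gC6P2, gC6P3, gC6P4, gC6P5, gC6P6, gDB, gDmB,
      gC4B, gC4mB]; ring))
    (20 * gC4B c d l m * gDmB c d l m - 12 * gDB c d l m * gC4mB c d l m) * h

variable {S : Type*} [CommRing S]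

theorem map_gD (f : R →+* S) (c e d l m : R) :
    f (gD c e d l m) = gD (f c) (f e) (f d) (f l) (f m) := by
  simp only [gD, gDP0, gDP1, gDP2, map_add, map_sub, map_mul, map_pow, map_neg, map_ofNat, map_one]

theorem map_gC4 (f : R →+* S) (c e d l m : R) :
    f (gC4 c e d l m) = gC4 (f c) (f e) (f d) (f l) (f m) := by
  simp only [gC4, gC4P0, gC4P1, gC4P2, gC4P3, gC4P4, map_add, map_sub, map_mul, map_pow, map_neg,
    map_ofNat, map_one]

theorem map_gC6 (f : R →+* S) (c e d l m : R) :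
    f (gC6 c e d l m) = gC6 (f c) (f e) (f d) (f l) (f m) := by
  simp only [gC6, gC6P0, gC6P1, gC6P2, gC6P3, gC6P4, gC6P5, gC6P6, map_add, map_sub, map_mul,
    map_pow, map_neg, map_ofNat, map_one]

theorem gD_at_zero (c e d l : R) : gD c e d l 0 = l ^ 12 := by
  simp [gD, gDP0, gDP1, gDP2]

theorem gC4_at_zero (c e d l : R) : gC4 c e d l 0 = c * l ^ 20 := by
  simp [gC4, gC4P0, gC4P1, gC4P2, gC4P3, gC4P4]

theorem gC6_at_zero (c e d l : R) : gC6 c e d l 0 = e * l ^ 30 := by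
  simp [gC6, gC6P0, gC6P1, gC6P2, gC6P3, gC6P4, gC6P5, gC6P6]

/-- The value at `(l, m) = (0, 1)`. -/
theorem gD_top (c e d : R) :
    gD c e d 0 1 = (-11 * c ^ 6 - 19464192 * c ^ 3 * d + 305764761600 * d ^ 2) := by
  simp [gD, gDP0, gDP1, gDP2]

theorem gC4_top (c e d : R) : gC4 c e d 0 1 = (1 * c ^ 11 - 36723456 * c ^ 8 * d
    + 12915503529984 * c ^ 5 * d ^ 2 + 929916254158848000 * c ^ 2 * d ^ 3) := by
  simp [gC4, gC4P0, gC4P1, gC4P2, gC4P3, gC4P4]

theorem gC6_top (c e d : R) : gC6 c e d 0 1 = (1 * c ^ 15 * e + 84063744 * c ^ 12 * e * d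
    - 259826663817216 * c ^ 9 * e * d ^ 2 + 727025435069644800 * c ^ 6 * e * d ^ 3
    - 6731430439413948088320000 * c ^ 3 * e * d ^ 4 - 51697385774699121318297600000 * e *
      d ^ 5) := by
  simp [gC6, gC6P0, gC6P1, gC6P2, gC6P3, gC6P4, gC6P5, gC6P6]

theorem hessian_line (r s u v : R) :
    12 * fD r s * (fDrr r s * u ^ 2 + 2 * fDrs r s * u * v + fDss r s * v ^ 2)
      - 11 * (fDr r s * u + fDs r s * v) ^ 2 = -11 * (u * s - v * r) ^ 2 * fC4 r s := by
  simp only [fD, fDr, fDs, fDrr, fDrs, fDss, fC4]; ring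

theorem jacobian_line (r s u v : R) :
    20 * fC4 r s * (fDr r s * u + fDs r s * v) - 12 * fD r s * (fC4r r s * u + fC4s r s * v)
      = -20 * (u * s - v * r) * fC6 r s := by
  simp only [fD, fDr, fDs, fC4r, fC4s, fC4, fC6]; ring

end Ring

/-! ## The forms over a field -/

section Field

variable {K : Type*} [Field K]

open Polynomial

theorem derivative_gD_line (c e d l m : K) :
    (derivative (gD (C c) (C e) (C d) (C l) (C m + X))).eval 0 = gDm c e d l m := by
  simp only [gD, gDP0, gDP1, gDP2, gDm, gDmP0, gDmP1, gDmP2, derivative_pow, derivative_add,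
    derivative_sub, derivative_mul,
    derivative_neg, derivative_C, derivative_X, derivative_ofNat, derivative_one, eval_add,
    eval_sub, eval_mul, eval_neg, eval_pow, eval_C, eval_X, eval_ofNat, eval_one, eval_zero,
    Nat.cast_ofNat, Nat.cast_one, Nat.add_one_sub_one, zero_mul, zero_add, mul_zero,
    add_zero, sub_zero]
  ring

theorem derivative_two_gD_line (c e d l m : K) :
    (derivative (derivative (gD (C c) (C e) (C d) (C l) (C m + X)))).eval 0
      = gDmm c e d l m := by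
  simp [gD, gDP0, gDP1, gDP2, gDmm, gDmmP0, gDmmP1, gDmmP2, derivative_pow]
  ring

theorem derivative_gC4_line (c e d l m : K) :
    (derivative (gC4 (C c) (C e) (C d) (C l) (C m + X))).eval 0 = gC4m c e d l m := by
  simp [gC4, gC4P0, gC4P1, gC4P2, gC4P3, gC4P4, gC4m, gC4mP0, gC4mP1, gC4mP2, gC4mP3,
    derivative_pow]
  ring


theorem eval_gC4 (c e d l m : K[X]) (x : K) : (gC4 c e d l m).eval x
    = gC4 (c.eval x) (e.eval x) (d.eval x) (l.eval x) (m.eval x) :=
  map_gC4 (evalRingHom x) c e d l m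

theorem eval_gC6 (c e d l m : K[X]) (x : K) : (gC6 c e d l m).eval x
    = gC6 (c.eval x) (e.eval x) (d.eval x) (l.eval x) (m.eval x) :=
  map_gC6 (evalRingHom x) c e d l m

theorem sq_fC6 (r s : K) : fC6 r s ^ 2 = fC4 r s ^ 3 - 1728 * fD r s ^ 5 := by
  linear_combination -(fC4_cube_sub_fC6_sq r s)

/-- The pullback of `fD` to the line through the member `(l, m)` in the direction of `m`. -/
theorem fD_member_line (r s l m : K) :
    fD (C (l * r - m * fDs r s) + C (-fDs r s) * X) (C (l * s + m * fDr r s) + C (fDr r s) * X)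
      = C (fD r s)
        * gD (C (fC4 r s)) (C (fC6 r s)) (C (fD r s ^ 5)) (C l) (C m + X) := by
  have h := fD_member (R := K[X]) (C r) (C s) (C l) (C m + X)
  rw [← map_fDs C, ← map_fDr C, ← map_fD C, ← map_fC4 C, ← map_fC6 C, ← map_pow C] at h
  rw [← h]
  congr 1 <;> simp only [map_sub, map_add, map_mul, map_neg] <;> ring

variable [CharZero K]

theorem fC4_member_of_ne {r s : K} (hD : fD r s ≠ 0) {l : K} (hl : l ≠ 0) (m : K) :
    fC4 (l * r - m * fDs r s) (l * s + m * fDr r s)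
      = gC4 (fC4 r s) (fC6 r s) (fD r s ^ 5) l m := by
  set A := l * r - m * fDs r s with hA
  set B := l * s + m * fDr r s with hB
  have h0 := fD_member r s l m
  have key := fD_member_line r s l m
  rw [← hA, ← hB] at key h0
  have h1 := congrArg (fun p : K[X] => (derivative p).eval 0) key
  have h2 := congrArg (fun p : K[X] => (derivative (derivative p)).eval 0) key
  simp only [derivative_C_mul, eval_C_mul, derivative_fD_line, derivative_two_fD_line,
    derivative_gD_line, derivative_two_gD_line] at h1 h2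
  have hw : -fDs r s * B - fDr r s * A = -12 * l * fD r s := by
    rw [hA, hB]
    linear_combination (-l) * euler_fD r s
  have hL := hessian_line A B (-fDs r s) (fDr r s)
  rw [hw, h0, h1, h2] at hL
  apply mul_left_cancel₀ (show (-1584 : K) * l ^ 2 * fD r s ^ 2 ≠ 0 from
    mul_ne_zero (mul_ne_zero (by norm_num) (pow_ne_zero _ hl)) (pow_ne_zero _ hD))
  linear_combination -hL + fD r s ^ 2 * hessian_gD (sq_fC6 r s) l m

/-- `gC4` is the degree `20` invariant of the member `(l, m)`. -/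
theorem fC4_member {r s : K} (hD : fD r s ≠ 0) (l m : K) :
    fC4 (l * r - m * fDs r s) (l * s + m * fDr r s)
      = gC4 (fC4 r s) (fC6 r s) (fD r s ^ 5) l m := by
  have h : fC4 (X * C r - C (m * fDs r s)) (X * C s + C (m * fDr r s))
      = gC4 (C (fC4 r s)) (C (fC6 r s)) (C (fD r s ^ 5)) X (C m) := by
    refine eq_of_infinite_eval_eq _ _
      (Set.Infinite.mono ?_ (Set.finite_singleton (0 : K)).infinite_compl)
    intro x hx
    have e := fC4_member_of_ne hD hx m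
    simpa only [Set.mem_ofPred_eq, eval_fC4, eval_gC4, eval_sub,
      eval_add, eval_mul, eval_X, eval_C] using e
  simpa only [eval_fC4, eval_gC4, eval_sub,
      eval_add, eval_mul, eval_X, eval_C] using congrArg (Polynomial.eval l) h

theorem fC6_member_of_ne {r s : K} (hD : fD r s ≠ 0) {l : K} (hl : l ≠ 0) (m : K) :
    fC6 (l * r - m * fDs r s) (l * s + m * fDr r s)
      = gC6 (fC4 r s) (fC6 r s) (fD r s ^ 5) l m := by
  set A := l * r - m * fDs r s with hA
  set B := l * s + m * fDr r s with hB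
  have h0 := fD_member r s l m
  have h4 := fC4_member hD l m
  have key := fD_member_line r s l m
  rw [← hA, ← hB] at key h0 h4
  have key4 : fC4 (C A + C (-fDs r s) * X) (C B + C (fDr r s) * X)
      = gC4 (C (fC4 r s)) (C (fC6 r s)) (C (fD r s ^ 5)) (C l) (C m + X) := by
    apply Polynomial.funext
    intro x
    simp only [eval_fC4, eval_gC4, eval_add, eval_mul, eval_C, eval_X]
    rw [← fC4_member hD l (m + x), hA, hB]
    congr 1 <;> ring
  have h1 := congrArg (fun p : K[X] => (derivative p).eval 0) key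
  have h2 := congrArg (fun p : K[X] => (derivative p).eval 0) key4
  simp only [derivative_C_mul, eval_C_mul, derivative_fD_line, derivative_fC4_line,
    derivative_gD_line, derivative_gC4_line] at h1 h2
  have hw : -fDs r s * B - fDr r s * A = -12 * l * fD r s := by
    rw [hA, hB]
    linear_combination (-l) * euler_fD r s
  have hJ := jacobian_line A B (-fDs r s) (fDr r s)
  rw [hw, h0, h1, h2, h4] at hJ
  apply mul_left_cancel₀ (show (240 : K) * l * fD r s ≠ 0 from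
    mul_ne_zero (mul_ne_zero (by norm_num) hl) hD)
  linear_combination -hJ + fD r s * jacobian_gD_gC4 (sq_fC6 r s) l m

/-- `gC6` is the degree `30` invariant of the member `(l, m)`. -/
theorem fC6_member {r s : K} (hD : fD r s ≠ 0) (l m : K) :
    fC6 (l * r - m * fDs r s) (l * s + m * fDr r s)
      = gC6 (fC4 r s) (fC6 r s) (fD r s ^ 5) l m := by
  have h : fC6 (X * C r - C (m * fDs r s)) (X * C s + C (m * fDr r s))
      = gC6 (C (fC4 r s)) (C (fC6 r s)) (C (fD r s ^ 5)) X (C m) := by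
    refine eq_of_infinite_eval_eq _ _
      (Set.Infinite.mono ?_ (Set.finite_singleton (0 : K)).infinite_compl)
    intro x hx
    have e := fC6_member_of_ne hD hx m
    simpa only [Set.mem_ofPred_eq, eval_fC6, eval_gC6, eval_sub,
      eval_add, eval_mul, eval_X, eval_C] using e
  simpa only [eval_fC6, eval_gC6, eval_sub,
      eval_add, eval_mul, eval_X, eval_C] using congrArg (Polynomial.eval l) h

end Field

/-! ## Parity at `2` -/

section Two

/-- Congruent parameters have congruent values of the forms. -/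
theorem dvd_sub_forms {N l m l' m' : ℤ} (hl : N ∣ l - l') (hm : N ∣ m - m') (c e d : ℤ) :
    N ∣ gD c e d l m - gD c e d l' m' ∧ N ∣ gC4 c e d l m - gC4 c e d l' m' ∧
      N ∣ gC6 c e d l m - gC6 c e d l' m' := by
  have key : ∀ a b : ℤ, (a : ZMod N.natAbs) = b ↔ N ∣ a - b := fun a b => by
    rw [eq_comm, ZMod.intCast_eq_intCast_iff_dvd_sub, Int.natAbs_dvd]
  simp only [← key, ← Int.coe_castRingHom, map_gD, map_gC4, map_gC6]
  simp only [Int.coe_castRingHom, (key l l').mpr hl, (key m m').mpr hm, and_self]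

/-- A curve with `16 ∥ c₄`, `8 ∥ c₆` goes to even discriminant at a member near `(0, 1)`. -/
theorem members_two {x y d l m : ℤ} (hx : x % 2 = 1) (hy : y % 4 = 1)
    (hrel : 64 * x ^ 3 - y ^ 2 = 27 * d) (hl : (2 : ℤ) ^ 90 ∣ l) (hm : (2 : ℤ) ^ 90 ∣ m - 1) :
    ∃ c1 e1 w : ℤ, gC4 (16 * x) (8 * y) d l m = 2 ^ 40 * c1 ∧
      gC6 (16 * x) (8 * y) d l m = 2 ^ 60 * e1 ∧ gD (16 * x) (8 * y) d l m = 2 ^ 24 * w ∧
      c1 % 2 = 1 ∧ e1 % 4 = 3 ∧ Even w := by
  obtain ⟨⟨kD, hD⟩, ⟨k4, h4⟩, ⟨k6, h6⟩⟩ :=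
    dvd_sub_forms (l := l) (l' := 0) (by rwa [sub_zero]) hm (16 * x) (8 * y) d
  rw [sub_eq_iff_eq_add] at hD h4 h6
  have hxo : Odd x := Int.odd_iff.mpr hx
  have hdo : Odd d := (Int.odd_mul.mp (hrel ▸ Even.sub_odd ⟨32 * x ^ 3, by ring⟩
    ((Int.odd_iff.mpr (by omega) : Odd y).pow))).2
  -- the values at `(0, 1)` with the powers of two taken out, plus the error terms
  refine ⟨2 * (8 * x ^ 11 + 6158592 * x ^ 5 * d ^ 2 + 108256500 * x ^ 2 * d ^ 3)
      + (-143451 * x ^ 8 * d) + 2 ^ 50 * k4,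
    4 * (2 * x ^ 15 * y - 30973752 * x ^ 9 * y * d ^ 2 + 21159225 * x ^ 6 * y * d ^ 3
      - 47829690000 * x ^ 3 * y * d ^ 4 - 89680668750 * y * d ^ 5) + (164187 * x ^ 12 * y * d)
      + 2 ^ 30 * k6,
    2 * (-2376 * x ^ 3 * d) + (-11 * x ^ 6 + 18225 * d ^ 2) + 2 ^ 66 * kD, ?_, ?_, ?_, ?_, ?_, ?_⟩
  · rw [h4, gC4_top]; ring
  · rw [h6, gC6_top]; ring
  · rw [hD, gD_top]; ring
  · refine Int.odd_iff.mp (((even_two_mul _).add_odd ?_).add_even
      ((Int.even_pow.mpr ⟨by decide, by norm_num⟩).mul_right _))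
    exact (Odd.mul (by decide) hxo.pow).mul hdo
  · have hy' : (y : ZMod 4) = 1 := by
      rw [← ZMod.intCast_mod y 4]; norm_num [hy]
    have hx2 : (x : ZMod 4) ^ 2 = 1 := by
      obtain ⟨i, hi⟩ := hxo
      rw [hi]; push_cast
      exact (by decide : ∀ u : ZMod 4, (2 * u + 1) ^ 2 = 1) _
    have hd : (d : ZMod 4) = 1 := by
      have h := congrArg (fun z : ℤ => (z : ZMod 4)) hrel
      push_cast at h
      rw [hy', show (64 : ZMod 4) = 0 from rfl, zero_mul] at h
      revert h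
      generalize (d : ZMod 4) = v
      revert v
      decide
    have key : ∀ z : ℤ, (z : ZMod 4) = 3 → z % 4 = 3 := fun z hz => by
      have : (z : ZMod 4) = ((3 : ℤ) : ZMod 4) := hz
      simpa using (ZMod.intCast_eq_intCast_iff' _ _ _).mp this
    apply key
    push_cast
    simp only [hy', hd, one_pow, mul_one, show (x : ZMod 4) ^ 12 = 1 by
      rw [show 12 = 2 * 6 by rfl, pow_mul, hx2, one_pow], show (4 : ZMod 4) = 0 from rfl,
      show (1073741824 : ZMod 4) = 0 from rfl, zero_mul,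
      zero_add, add_zero]
    decide
  · refine ((even_two_mul _).add ?_).add
      ((Int.even_pow.mpr ⟨by decide, by norm_num⟩).mul_right _)
    exact (Odd.mul (by decide) hxo.pow).add_odd (Odd.mul (by decide) hdo.pow)

end Two

end

end Fermat.Agent.AllSemistable.FiveForms
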