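import Fermat.Agent.LT.Switch.Model

/-!
# Integral models at `2`

A model with odd discriminant has a normal form read off from the parity of `a₁`; conversely
invariants of these forms meeting the condition at `3` have integral models with the same parity of
`a₁`.
-/

set_option autoImplicit false

open WeierstrassCurve

namespace Fermat.Agent.AllSemistable

variable (W : WeierstrassCurve ℤ)

/-- `a₁` odd: the invariants come from a model `y² + xy = x³ + i x² + j x + a₆`. -/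
theorem normal_form_odd (h2 : ¬ (2 : ℤ) ∣ W.Δ) (ha : Odd W.a₁) :
    ∃ i j n : ℤ, W.c₄ = (1 + 4 * i) ^ 2 - 48 * j ∧
      W.c₆ = -(1 + 4 * i) ^ 3 + 72 * (1 + 4 * i) * j - 864 * (1 + j + 2 * n) := by
  obtain ⟨m, hm⟩ := ha
  obtain ⟨a1, a2, a3, a4, a6⟩ := W
  dsimp only at hm
  subst hm
  set i : ℤ := a2 + m * (2 * m + 1) - 3 * a3 - m ^ 2 with hi
  set j : ℤ := a4 + m * a3 - 2 * a3 * a2 - (m * a3 + a3 * m) * (2 * m + 1) + 3 * a3 ^ 2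
    + 2 * m * (m * a3) with hj
  set k : ℤ := a6 - a3 * a4 + a3 ^ 2 * a2 - a3 ^ 3 - (m * a3) * a3 - (m * a3) ^ 2
    + a3 * (m * a3) * (2 * m + 1) with hk
  have hΔ : (⟨2 * m + 1, a2, a3, a4, a6⟩ : WeierstrassCurve ℤ).Δ =
      (⟨1, i, 0, j, k⟩ : WeierstrassCurve ℤ).Δ := by
    simp only [WeierstrassCurve.Δ, WeierstrassCurve.b₂, WeierstrassCurve.b₄, WeierstrassCurve.b₆,
      WeierstrassCurve.b₈, hi, hj, hk]
    ring
  -- `W` has the invariants of `y² + xy = x³ + i x² + j x + k`; an odd discriminant forces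
  -- `k + j` odd
  obtain ⟨n, hn⟩ : ∃ n, k = 1 + j + 2 * n := by
    refine ⟨(k - 1 - j) / 2, ?_⟩
    have hodd : (k + j) % 2 = 1 := by
      by_contra h
      apply h2
      rw [hΔ]
      obtain ⟨t, ht⟩ : (2 : ℤ) ∣ k + j := Int.dvd_of_emod_eq_zero (by omega)
      obtain ⟨u, hu⟩ := (Int.even_mul_succ_self j).two_dvd
      refine ⟨-(1 + 4 * i) ^ 2 * (t + 2 * i * k - u) - 32 * j ^ 3 - 216 * k ^ 2
        + 36 * (1 + 4 * i) * j * k, ?_⟩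
      simp only [WeierstrassCurve.Δ, WeierstrassCurve.b₂, WeierstrassCurve.b₄, WeierstrassCurve.b₆,
        WeierstrassCurve.b₈]
      linear_combination (-(1 + 4 * i) ^ 2) * ht + (1 + 4 * i) ^ 2 * hu
    omega
  refine ⟨i, j, n, ?_, ?_⟩
  · simp only [WeierstrassCurve.c₄, WeierstrassCurve.b₂, WeierstrassCurve.b₄, hi, hj]
    ring
  · rw [← hn]
    simp only [WeierstrassCurve.c₆, WeierstrassCurve.b₂, WeierstrassCurve.b₄, WeierstrassCurve.b₆,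
      hi, hj, hk]
    ring

/-- `a₁` even: `c₄ = 16 x`, `c₆ = 8 y` with `y ≡ 1 (mod 4)`. -/
theorem normal_form_even (h2 : ¬ (2 : ℤ) ∣ W.Δ) (ha : Even W.a₁) :
    ∃ x y : ℤ, W.c₄ = 16 * x ∧ W.c₆ = 8 * (1 + 4 * y) := by
  obtain ⟨a1, a2, a3, a4, a6⟩ := W
  obtain ⟨m, hm⟩ : ∃ m, a1 = 2 * m := by
    obtain ⟨m, hm⟩ := ha
    exact ⟨m, by rw [two_mul]; exact hm⟩
  subst hm
  rcases Int.even_or_odd a3 with ⟨t, ht⟩ | ⟨t, ht⟩
  · refine absurd ?_ h2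
    subst ht
    set B : ℤ := m ^ 2 + a2 with hB
    set C : ℤ := m * (t + t) + a4 with hC
    refine ⟨-8 * B ^ 2 * (4 * m ^ 2 * a6 + 4 * a2 * a6 - 2 * m * (t + t) * a4 + a2 * (t + t) ^ 2
      - a4 ^ 2) - 32 * C ^ 3 - 216 * (t ^ 2 + a6) ^ 2 + 144 * B * C * (t ^ 2 + a6), ?_⟩
    simp only [WeierstrassCurve.Δ, WeierstrassCurve.b₂, WeierstrassCurve.b₄, WeierstrassCurve.b₆,
      WeierstrassCurve.b₈, hB, hC]
    ring
  · subst ht
    refine ⟨(m ^ 2 + a2) ^ 2 - 3 * (m * (2 * t + 1) + a4),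
      -2 * (m ^ 2 + a2) ^ 3 + 9 * (m ^ 2 + a2) * (m * (2 * t + 1) + a4)
        - 27 * (t ^ 2 + t + a6) - 7, ?_, ?_⟩
    · simp only [WeierstrassCurve.c₄, WeierstrassCurve.b₂, WeierstrassCurve.b₄]
      ring
    · simp only [WeierstrassCurve.c₆, WeierstrassCurve.b₂, WeierstrassCurve.b₄,
        WeierstrassCurve.b₆]
      ring

/-- An integral model with `a₁` even and given invariants. -/
theorem exists_model_even (c e : ℤ) (hc : (16 : ℤ) ∣ c) (he : e % 32 = 8)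
    (h3 : ∃ β : ℤ, 3 ∣ β ^ 2 - c ∧ 27 ∣ β ^ 3 - 3 * β * c - 2 * e) :
    ∃ V : WeierstrassCurve ℤ, V.c₄ = c ∧ V.c₆ = e ∧ Even V.a₁ := by
  obtain ⟨β, ⟨p, hp⟩, ⟨q, hq⟩⟩ := h3
  obtain ⟨k, rfl⟩ := hc
  obtain ⟨l, rfl⟩ : ∃ l, e = 8 + 32 * l := ⟨e / 32, by omega⟩
  set b : ℤ := 1216 * β with hb
  obtain ⟨a4, ha4⟩ : (48 : ℤ) ∣ b ^ 2 - 16 * k := by
    have e1 : (16 : ℤ) ∣ b ^ 2 - 16 * k := ⟨92416 * β ^ 2 - k, by rw [hb]; ring⟩
    have e2 : (3 : ℤ) ∣ b ^ 2 - 16 * k :=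
      ⟨492885 * β ^ 2 + p, by rw [hb]; linear_combination hp⟩
    simpa using (show IsCoprime (16 : ℤ) 3 from ⟨1, -5, by norm_num⟩).mul_dvd e1 e2
  obtain ⟨a6, ha6⟩ : (1728 : ℤ) ∣ b ^ 3 - 3 * b * (16 * k) - 2 * (8 + 32 * l) - 432 := by
    have e1 : (64 : ℤ) ∣ b ^ 3 - 3 * b * (16 * k) - 2 * (8 + 32 * l) - 432 :=
      ⟨1216 ^ 2 * 19 * β ^ 3 - 912 * β * k - l - 7, by rw [hb]; ring⟩
    have e2 : (27 : ℤ) ∣ b ^ 3 - 3 * b * (16 * k) - 2 * (8 + 32 * l) - 432 :=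
      ⟨45 * (1216 ^ 2 + 1216 + 1) * β ^ 3 - 2160 * β * k + q - 16, by
        rw [hb]; linear_combination hq⟩
    simpa using (show IsCoprime (64 : ℤ) 27 from ⟨-8, 19, by norm_num⟩).mul_dvd e1 e2
  refine ⟨⟨0, 304 * β, 1, a4, a6⟩, ?_, ?_, ⟨0, rfl⟩⟩
  · simp only [WeierstrassCurve.c₄, WeierstrassCurve.b₂, WeierstrassCurve.b₄]
    rw [show (0 : ℤ) ^ 2 + 4 * (304 * β) = b by rw [hb]; ring]
    linear_combination ha4
  · simp only [WeierstrassCurve.c₆, WeierstrassCurve.b₂, WeierstrassCurve.b₄, WeierstrassCurve.b₆]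
    rw [show (0 : ℤ) ^ 2 + 4 * (304 * β) = b by rw [hb]; ring]
    refine mul_left_cancel₀ (show (2 : ℤ) ≠ 0 by norm_num) ?_
    linear_combination ha6 - 3 * b * ha4

/-- An integral model with `a₁` odd and given invariants. -/
theorem exists_model_odd (c e : ℤ) (hc : Odd c) (he : e % 4 = 3)
    (hD : (1728 : ℤ) ∣ c ^ 3 - e ^ 2)
    (h3 : ∃ β : ℤ, 3 ∣ β ^ 2 - c ∧ 27 ∣ β ^ 3 - 3 * β * c - 2 * e) :
    ∃ V : WeierstrassCurve ℤ, V.c₄ = c ∧ V.c₆ = e ∧ Odd V.a₁ := by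
  obtain ⟨V, h4, h6⟩ := LT.Switch.exists_model c e hc he hD h3
  refine ⟨V, h4, h6, Int.not_even_iff_odd.mp fun h => Int.not_even_iff_odd.mpr hc ?_⟩
  obtain ⟨m, hm⟩ := h
  refine ⟨8 * (m ^ 2 + V.a₂) ^ 2 - 12 * V.b₄, ?_⟩
  rw [← h4, WeierstrassCurve.c₄, WeierstrassCurve.b₂, hm]
  ring

end Fermat.Agent.AllSemistable
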