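import Fermat.Agent.AllSemistable.Inputs
import Fermat.Agent.AllSemistable.FiveForms
import Fermat.Agent.AllSemistable.ModelTwo
import Fermat.Agent.Switch.Main
import Fermat.Agent.LT.Switch.Model

/-!
# The switch at `5` to an even discriminant

A semistable model `W` with good supersingular reduction at `2` and trace `±2` is moved inside its
family with the same `5`-torsion to a semistable model with even discriminant: the parameter
`(l, m)` is `(0, 1)` to high order at `2` and `(1, 0)` at the odd primes dividing `30 Δ`.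

Main result: `switchFiveInput`.
-/

set_option autoImplicit false

noncomputable section

open WeierstrassCurve Polynomial IsLocalRing

namespace Fermat.Agent.AllSemistable

open Fermat.Agent.Switch FiveForms

local notation "Qb" => AlgebraicClosure ℚ

/-! ## The parameter -/

/-- The shape of the invariants for even `a₁` and `32 ∤ c₄`. -/
theorem exists_two_data {W : WeierstrassCurve ℤ} (hW : GoodTwo W) (ha : Even W.a₁)
    (hc : ¬ (32 : ℤ) ∣ W.c₄) :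
    ∃ x y : ℤ, W.c₄ = 16 * x ∧ W.c₆ = 8 * y ∧ Odd x ∧ y % 4 = 1 ∧
      64 * x ^ 3 - y ^ 2 = 27 * W.Δ := by
  obtain ⟨x, v, h4, h6⟩ := normal_form_even W hW.2.2 ha
  refine ⟨x, 1 + 4 * v, h4, h6, Int.odd_iff.mpr (by omega), by omega, ?_⟩
  have hrel := W.c_relation
  rw [h4, h6] at hrel
  linarith

/-- The forms near `(1, 0)`. -/
theorem five_congr (n : ℕ) (c e d l m : ℤ) (hl : (n : ℤ) ∣ l - 1) (hm : (n : ℤ) ∣ m) :
    (n : ℤ) ∣ gD c e d l m - 1 ∧ (n : ℤ) ∣ gC4 c e d l m - c ∧ (n : ℤ) ∣ gC6 c e d l m - e := by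
  simpa [gD_at_zero, gC4_at_zero, gC6_at_zero] using
    dvd_sub_forms hl (show (n : ℤ) ∣ m - 0 by rwa [sub_zero]) c e d

/-- A parameter with `l + m = 1`, near `(0, 1)` at `2` and `(1, 0)` at `M`, whose member is
non-degenerate. -/
theorem exists_param (c e d α M : ℤ) (hM : Odd M) :
    ∃ l m : ℤ, l + m = 1 ∧ 2 ^ 90 ∣ l ∧ 2 ^ 90 ∣ m - 1 ∧ M ∣ m ∧ M ∣ l - 1 ∧
      l - α * m ≠ 0 ∧ gD c e d l m ≠ 0 := by
  obtain ⟨k, hk⟩ := hM
  obtain ⟨u, v, huv⟩ : IsCoprime M ((2 : ℤ) ^ 90) := by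
    have : IsCoprime M (2 : ℤ) := ⟨1, -k, by rw [hk]; ring⟩
    exact this.pow_right
  have hM0 : M ≠ 0 := fun h => by omega
  set P : ℤ[X] := (1 - C (1 + α) * X) * gD (C c) (C e) (C d) (1 - X) X with hP
  have hev : ∀ z : ℤ, P.eval z = (1 - (1 + α) * z) * gD c e d (1 - z) z := fun z => by
    rw [hP, eval_mul, ← coe_evalRingHom, map_gD]
    simp
  have hP0 : P ≠ 0 := fun h => by
    have := hev 0
    rw [h] at this
    simp [gD_at_zero] at this
  have hinj : Function.Injective fun i : ℤ => u * M + i * (2 ^ 90 * M) := fun i i' h => by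
    have h' : i * (2 ^ 90 * M) = i' * (2 ^ 90 * M) := by simpa using h
    exact mul_right_cancel₀ (mul_ne_zero (by norm_num) hM0) h'
  obtain ⟨-, ⟨i, rfl⟩, hi⟩ :=
    ((Set.infinite_range_of_injective hinj).sdiff (finite_setOfPred_isRoot hP0)).nonempty
  simp only [Set.mem_ofPred_eq, IsRoot.def, hev, mul_eq_zero, not_or] at hi
  obtain ⟨hi1, hi2⟩ := hi
  set m : ℤ := u * M + i * (2 ^ 90 * M)
  refine ⟨1 - m, m, sub_add_cancel 1 m, ⟨v - i * M, ?_⟩, ⟨i * M - v, ?_⟩,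
    ⟨u + i * 2 ^ 90, ?_⟩, ⟨-u - i * 2 ^ 90, ?_⟩, fun h => hi1 ?_, hi2⟩
  · linear_combination -huv
  · linear_combination huv
  · ring
  · ring
  · linear_combination h

theorem base_Δ {W : WeierstrassCurve ℤ} (F : FamilyData W) :
    fD F.r₀ F.s₀ ^ 5 = (W.Δ : Qb) := by
  apply mul_left_cancel₀ (show (1728 : Qb) ≠ 0 by norm_num)
  rw [← fC4_cube_sub_fC6_sq, F.c4_base, F.c6_base]
  exact_mod_cast W.c_relation.symm

/-! ## The invariants of a member -/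

section Values

variable {W : WeierstrassCurve ℤ} (F : FamilyData W) (l m : ℤ)

theorem cast_gC4 : ((gC4 W.c₄ W.c₆ W.Δ l m : ℤ) : Qb) =
    fC4 ((l : Qb) * F.r₀ - (m : Qb) * fDs F.r₀ F.s₀)
      ((l : Qb) * F.s₀ + (m : Qb) * fDr F.r₀ F.s₀) := by
  rw [fC4_member F.fD_base, base_Δ F, F.c4_base, F.c6_base, 
    ← eq_intCast (Int.castRingHom Qb), map_gC4]
  simp only [eq_intCast]

theorem cast_gC6 : ((gC6 W.c₄ W.c₆ W.Δ l m : ℤ) : Qb) =
    fC6 ((l : Qb) * F.r₀ - (m : Qb) * fDs F.r₀ F.s₀)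
      ((l : Qb) * F.s₀ + (m : Qb) * fDr F.r₀ F.s₀) := by
  rw [fC6_member F.fD_base, base_Δ F, F.c4_base, F.c6_base,
    ← eq_intCast (Int.castRingHom Qb), map_gC6]
  simp only [eq_intCast]

theorem cast_gD : ((gD W.c₄ W.c₆ W.Δ l m : ℤ) : Qb) * fD F.r₀ F.s₀ =
    fD ((l : Qb) * F.r₀ - (m : Qb) * fDs F.r₀ F.s₀)
      ((l : Qb) * F.s₀ + (m : Qb) * fDr F.r₀ F.s₀) := by
  rw [fD_member, mul_comm (fD F.r₀ F.s₀), base_Δ F, F.c4_base, F.c6_base,
    ← eq_intCast (Int.castRingHom Qb), map_gD]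
  simp only [eq_intCast]

theorem forms_relation (F : FamilyData W) :
    gC4 W.c₄ W.c₆ W.Δ l m ^ 3 - gC6 W.c₄ W.c₆ W.Δ l m ^ 2
      = 1728 * (W.Δ * gD W.c₄ W.c₆ W.Δ l m ^ 5) := by
  apply Int.cast_injective (α := Qb)
  push_cast
  rw [cast_gC4 F, cast_gC6 F, fC4_cube_sub_fC6_sq, ← cast_gD F, mul_pow, base_Δ F]
  ring

/-- Away from `30 Δ` the discriminant and `c₄` of a primitive member are coprime. -/
theorem not_dvd_member {q : ℕ} (hq : q.Prime) (h30 : ¬ (q : ℤ) ∣ 30 * W.Δ) (hlm : l + m = 1)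
    (hD : (q : ℤ) ∣ gD W.c₄ W.c₆ W.Δ l m) (F : FamilyData W) :
    ¬ (q : ℤ) ∣ gC4 W.c₄ W.c₆ W.Δ l m := by
  intro hC
  obtain ⟨A, hA⟩ := Arith.exists_liesOverPrime hq
  obtain ⟨hrA, hsA⟩ := F.base_mem hq h30 hA
  -- the member `(u, v)` of the pencil is integral at a place over `q`
  set r : A := ⟨F.r₀, hrA⟩ with hr
  set s : A := ⟨F.s₀, hsA⟩ with hs
  set u : A := (l : A) * r - (m : A) * fDs r s with hu
  set v : A := (l : A) * s + (m : A) * fDr r s with hv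
  have hu' : A.subtype u = (l : Qb) * F.r₀ - (m : Qb) * fDs F.r₀ F.s₀ := by
    rw [hu, map_sub, map_mul, map_mul, map_intCast, map_intCast, map_fDs]; rfl
  have hv' : A.subtype v = (l : Qb) * F.s₀ + (m : Qb) * fDr F.r₀ F.s₀ := by
    rw [hv, map_add, map_mul, map_mul, map_intCast, map_intCast, map_fDr]; rfl
  have hinj : Function.Injective A.subtype := fun a b h => Subtype.ext h
  have e4 : fC4 u v = ((gC4 W.c₄ W.c₆ W.Δ l m : ℤ) : A) := by
    apply hinj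
    rw [map_fC4, hu', hv', map_intCast, cast_gC4 F]
  have eD : fD u v = ((gD W.c₄ W.c₆ W.Δ l m : ℤ) : A) * fD r s := by
    apply hinj
    rw [map_fD, hu', hv', map_mul, map_intCast, map_fD]
    exact (cast_gD F l m).symm
  have e0 : fD r s ^ 5 = ((W.Δ : ℤ) : A) := by
    apply hinj
    rw [map_pow, map_fD, map_intCast]
    exact base_Δ F
  set φ := residue A
  have hne : ∀ n : ℤ, ¬ (q : ℤ) ∣ n → (n : ResidueField A) ≠ 0 := fun n hn h =>
    hn ((Arith.intCast_residue_eq_zero_iff hA hq n).mp h)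
  have hqz := Nat.prime_iff_prime_int.mp hq
  have h5 : (3125 : ResidueField A) ≠ 0 := by
    have := hne (5 ^ 5) fun h => h30 <| (hqz.dvd_of_dvd_pow h).trans
      (dvd_mul_of_dvd_left (by norm_num) _)
    norm_num at this
    exact this
  have h12 : (12 : ResidueField A) ≠ 0 := by
    have := hne 12 fun h => h30 <| by
      rcases hqz.dvd_or_dvd (show (q : ℤ) ∣ 4 * 3 by norm_num; exact h) with h | h
      · exact dvd_mul_of_dvd_left ((hqz.dvd_of_dvd_pow (show (q : ℤ) ∣ 2 ^ 2 by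
          norm_num; exact h)).trans (by norm_num)) _
      · exact dvd_mul_of_dvd_left (h.trans (by norm_num)) _
    exact_mod_cast this
  have hd0 : φ (fD r s) ≠ 0 := fun h => h30 (((Arith.intCast_residue_eq_zero_iff hA hq W.Δ).mp (by
    rw [← map_intCast φ, ← e0, map_pow, h, zero_pow (by norm_num)])).mul_left 30)
  -- modulo the place both forms vanish at `(u, v)`, so by Bezout `u` and `v` do
  have z4 : fC4 (φ u) (φ v) = 0 := by
    rw [← map_fC4, e4, map_intCast]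
    exact (Arith.intCast_residue_eq_zero_iff hA hq _).mpr hC
  have zD : fD (φ u) (φ v) = 0 := by
    rw [← map_fD, eD, map_mul, map_intCast, (Arith.intCast_residue_eq_zero_iff hA hq _).mpr hD,
      zero_mul]
  have b1 := bezout_fst (φ u) (φ v)
  have b2 := bezout_snd (φ u) (φ v)
  rw [z4, zD] at b1 b2
  simp only [mul_zero, add_zero, mul_eq_zero, h5, false_or,
    pow_eq_zero_iff (by norm_num : (31 : ℕ) ≠ 0)] at b1 b2
  have hdet : s * u - r * v = -(12 * (m : A) * fD r s) := by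
    rw [hu, hv, mul_assoc, mul_left_comm, ← euler_fD]; ring
  -- so `m ≡ 0` and `l ≡ 1`, and `fD r s` would vanish as well
  have hd := congrArg φ hdet
  rw [map_sub, map_mul, map_mul, b1, b2, mul_zero, mul_zero, sub_self, map_neg, map_mul, map_mul,
    map_ofNat, map_intCast] at hd
  have hm0 : (m : ResidueField A) = 0 := by simpa [h12, hd0] using hd.symm
  have hl1 : (l : ResidueField A) = 1 := by
    have := congrArg (Int.cast : ℤ → ResidueField A) hlm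
    push_cast at this
    rwa [hm0, add_zero] at this
  have hu0 : φ r = 0 := by
    rw [← b1, hu, map_sub, map_mul, map_mul, map_intCast, map_intCast, hl1, hm0, zero_mul,
      sub_zero, one_mul]
  have hv0 : φ s = 0 := by
    rw [← b2, hv, map_add, map_mul, map_mul, map_intCast, map_intCast, hl1, hm0, zero_mul,
      add_zero, one_mul]
  exact hd0 (by rw [map_fD, hu0, hv0]; simp [fD])

end Values

/-! ## The member as a model -/

/-- Two curves over `ℚ` with proportional invariants are isomorphic. -/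
theorem exists_variableChange_of_invariants (E E' : WeierstrassCurve ℚ) (u : ℚ) (hu : u ≠ 0)
    (h4 : E.c₄ = u ^ 4 * E'.c₄) (h6 : E.c₆ = u ^ 6 * E'.c₆) :
    ∃ C : VariableChange ℚ, C • E = E' := by
  obtain ⟨s, hs⟩ : ∃ s : ℚ, 2 * s = u * E'.a₁ - E.a₁ := ⟨(u * E'.a₁ - E.a₁) / 2, by ring⟩
  obtain ⟨r, hr⟩ : ∃ r : ℚ, 3 * r = u ^ 2 * E'.a₂ - E.a₂ + s * E.a₁ + s ^ 2 :=
    ⟨(u ^ 2 * E'.a₂ - E.a₂ + s * E.a₁ + s ^ 2) / 3, by ring⟩
  obtain ⟨t, ht⟩ : ∃ t : ℚ, 2 * t = u ^ 3 * E'.a₃ - E.a₃ - r * E.a₁ :=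
    ⟨(u ^ 3 * E'.a₃ - E.a₃ - r * E.a₁) / 2, by ring⟩
  refine ⟨⟨Units.mk0 u hu, r, s, t⟩, Switch.curve_ext ?_ ?_ ?_ ?_ ?_⟩
  · rw [variableChange_a₁, Units.val_inv_eq_inv_val, Units.val_mk0,
      show E.a₁ + 2 * s = u * E'.a₁ by linear_combination hs, inv_mul_cancel_left₀ hu]
  · rw [variableChange_a₂, Units.val_inv_eq_inv_val, Units.val_mk0,
      show E.a₂ - s * E.a₁ + 3 * r - s ^ 2 = u ^ 2 * E'.a₂ by linear_combination hr, inv_pow,
      inv_mul_cancel_left₀ (pow_ne_zero 2 hu)]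
  · rw [variableChange_a₃, Units.val_inv_eq_inv_val, Units.val_mk0,
      show E.a₃ + r * E.a₁ + 2 * t = u ^ 3 * E'.a₃ by linear_combination ht, inv_pow,
      inv_mul_cancel_left₀ (pow_ne_zero 3 hu)]
  · rw [variableChange_c₄, Units.val_inv_eq_inv_val, Units.val_mk0, h4, inv_pow,
      inv_mul_cancel_left₀ (pow_ne_zero 4 hu)]
  · rw [variableChange_c₆, Units.val_inv_eq_inv_val, Units.val_mk0, h6, inv_pow,
      inv_mul_cancel_left₀ (pow_ne_zero 6 hu)]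

/-- The model over `ℚ` with the `a₁, a₂, a₃` of `W` and given invariants. -/
def memberRat (W : WeierstrassCurve ℤ) (C4 C6 : ℚ) : WeierstrassCurve ℚ :=
  ⟨W.a₁, W.a₂, W.a₃, (W.a₄ : ℚ) - (C4 - W.c₄) / 48,
    (W.a₆ : ℚ) - (W.b₂ : ℚ) * (C4 - W.c₄) / 576 - (C6 - W.c₆) / 864⟩

theorem memberRat_c₄ (W : WeierstrassCurve ℤ) (C4 C6 : ℚ) : (memberRat W C4 C6).c₄ = C4 := by
  simp only [memberRat, WeierstrassCurve.c₄, WeierstrassCurve.b₂, WeierstrassCurve.b₄]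
  push_cast
  ring

theorem memberRat_c₆ (W : WeierstrassCurve ℤ) (C4 C6 : ℚ) : (memberRat W C4 C6).c₆ = C6 := by
  simp only [memberRat, WeierstrassCurve.c₄, WeierstrassCurve.c₆, WeierstrassCurve.b₂,
    WeierstrassCurve.b₄, WeierstrassCurve.b₆]
  push_cast
  ring

/-- An integral model of the member at `(l, m)` has the traces of `W` modulo `5`. -/
theorem apOfModel_congr_five {W V : WeierstrassCurve ℤ} (F : FamilyData W) (l m : ℤ)
    (hL : l - F.α * m ≠ 0) (hg : gD W.c₄ W.c₆ W.Δ l m ≠ 0)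
    (hV4 : gC4 W.c₄ W.c₆ W.Δ l m = 2 ^ 40 * V.c₄) (hV6 : gC6 W.c₄ W.c₆ W.Δ l m = 2 ^ 60 * V.c₆)
    {ℓ : ℕ} (hℓ : ℓ.Prime) (hgood : W.IsGoodPrimeFor ℓ) (hgood' : V.IsGoodPrimeFor ℓ)
    (h5 : ℓ ≠ 5) : (5 : ℤ) ∣ V.apOfModel ℓ - W.apOfModel ℓ := by
  have : Fact (Nat.Prime 5) := ⟨by norm_num⟩
  -- `E`: the member of the family of `W` at `t = m / (l - α m)`, over `ℚ`
  set L : ℚ := ((l - F.α * m : ℤ) : ℚ) with hLdef
  have hL0 : L ≠ 0 := Int.cast_ne_zero.mpr hL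
  set t : ℚ := (m : ℚ) / L with ht
  set E := memberRat W ((gC4 W.c₄ W.c₆ W.Δ l m : ℤ) / L ^ 20)
    ((gC6 W.c₄ W.c₆ W.Δ l m : ℤ) / L ^ 30) with hE
  set U := (l : Qb) * F.r₀ - (m : Qb) * fDs F.r₀ F.s₀ with hU
  set V' := (l : Qb) * F.s₀ + (m : Qb) * fDr F.r₀ F.s₀ with hV'
  have hLQ : (L : Qb) ≠ 0 := Rat.cast_ne_zero.mpr hL0
  have hLQ' : (L : Qb) = (l : Qb) - (F.α : Qb) * (m : Qb) := by rw [hLdef]; push_cast; ring
  have hpr : F.r₀ + (t : Qb) * F.u = (L : Qb)⁻¹ * U := by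
    rw [ht, F.hu, hU]; push_cast; field_simp; rw [hLQ']; ring
  have hps : F.s₀ + (t : Qb) * F.v = (L : Qb)⁻¹ * V' := by
    rw [ht, F.hv, hV']; push_cast; field_simp; rw [hLQ']; ring
  have hfib : Fib (E⁄Qb) (F.r₀ + (t : Qb) * F.u) (F.s₀ + (t : Qb) * F.v) := by
    rw [hpr, hps]
    refine ⟨?_, ?_, ?_⟩
    · show (E.map (algebraMap ℚ Qb)).c₄ = _
      rw [map_c₄, hE, memberRat_c₄, eq_ratCast, fC4_smul, ← cast_gC4 F]
      push_cast
      field_simp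
    · show (E.map (algebraMap ℚ Qb)).c₆ = _
      rw [map_c₆, hE, memberRat_c₆, eq_ratCast, fC6_smul, ← cast_gC6 F]
      push_cast
      field_simp
    · rw [fD_smul, ← cast_gD F]
      exact mul_ne_zero (pow_ne_zero _ (inv_ne_zero hLQ))
        (mul_ne_zero (Int.cast_ne_zero.mpr hg) F.fD_base)
  have hrel : ((gC4 W.c₄ W.c₆ W.Δ l m : ℤ) : ℚ) ^ 3 - ((gC6 W.c₄ W.c₆ W.Δ l m : ℤ) : ℚ) ^ 2
      = 1728 * ((W.Δ : ℚ) * ((gD W.c₄ W.c₆ W.Δ l m : ℤ) : ℚ) ^ 5) := by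
    exact_mod_cast forms_relation l m F
  have hEΔ : E.Δ ≠ 0 := fun h => by
    have e := E.c_relation
    rw [h, mul_zero, hE, memberRat_c₄, memberRat_c₆] at e
    field_simp at e
    have : (1728 : ℚ) * ((W.Δ : ℚ) * ((gD W.c₄ W.c₆ W.Δ l m : ℤ) : ℚ) ^ 5) = 0 := by
      rw [← hrel]; linear_combination -e
    simp [hg, EC.FrobTrace.Δ_ne_zero_of_isGoodPrimeFor hgood] at this
  have : E.IsElliptic := ⟨isUnit_iff_ne_zero.mpr hEΔ⟩
  -- `V` is isomorphic to `E`; compare the traces of Frobenius on the `5`-torsion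
  obtain ⟨C, hC⟩ := exists_variableChange_of_invariants E (V.map (Int.castRingHom ℚ))
    (2 ^ 10 / L ^ 5) (div_ne_zero (by norm_num) (pow_ne_zero _ hL0))
    (by rw [hE, memberRat_c₄, map_c₄, eq_intCast, hV4]; push_cast; field_simp; ring)
    (by rw [hE, memberRat_c₆, map_c₆, eq_intCast, hV6]; push_cast; field_simp; ring)
  obtain ⟨A, hA⟩ := Arith.exists_liesOverPrime hℓ
  obtain ⟨σ, hσ⟩ := Arith.exists_isFrobeniusAt hA hℓ
  have e := EC.FrobTrace.galoisTrace_frobenius (p := 5) W hℓ hgood h5 hA hσ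
  have e' := EC.FrobTrace.galoisTrace_frobenius (p := 5) V hℓ hgood' h5 hA hσ
  rw [← hC, RT.Assembly.galoisTrace_variableChange] at e'
  have htrace := F.galoisTrace_eq (W.map (Int.castRingHom ℚ)) E 0 t
    (fun X hX => by
      rcases hX with rfl | hX
      · exact ⟨by simp, by simp, by simp⟩
      · rw [Set.mem_singleton_iff] at hX
        subst hX
        exact ⟨by simp [hE, memberRat], by simp [hE, memberRat], by simp [hE, memberRat]⟩)
    (fib_base F) hfib σ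
  rw [show (W.map (Int.castRingHom ℚ)).toAffine = W.map (Int.castRingHom ℚ) from rfl, e,
    show E.toAffine = E from rfl, e'] at htrace
  exact (ZMod.intCast_zmod_eq_zero_iff_dvd _ 5).mp (by push_cast; rw [htrace, sub_self])

/-- Scaling the invariants keeps the condition at `3`. -/
theorem exists_b_at_three (W : WeierstrassCurve ℤ) (c1 e1 : ℤ)
    (h4 : (27 : ℤ) ∣ 2 ^ 40 * c1 - W.c₄) (h6 : (27 : ℤ) ∣ 2 ^ 60 * e1 - W.c₆) :
    ∃ b : ℤ, 3 ∣ b ^ 2 - c1 ∧ 27 ∣ b ^ 3 - 3 * b * c1 - 2 * e1 := by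
  obtain ⟨i, hi⟩ : (27 : ℤ) ∣ c1 - 49 * W.c₄ := by omega
  obtain ⟨k, hk⟩ : (27 : ℤ) ∣ e1 - 343 * W.c₆ := by omega
  refine ⟨7 * W.b₂, ⟨49 * 8 * W.b₄ - 9 * i, ?_⟩, ⟨343 * 16 * W.b₆ - 21 * W.b₂ * i - 2 * k, ?_⟩⟩
  · have : W.c₄ = W.b₂ ^ 2 - 24 * W.b₄ := rfl
    linear_combination -hi - 49 * this
  · have h4' : W.c₄ = W.b₂ ^ 2 - 24 * W.b₄ := rfl
    have h6' : W.c₆ = -W.b₂ ^ 3 + 36 * W.b₂ * W.b₄ - 216 * W.b₆ := rfl
    linear_combination -21 * W.b₂ * hi - 2 * hk - 1029 * W.b₂ * h4' - 686 * h6'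

/-- Trace `±2` at `2`: the switch at `5` to an even discriminant. -/
theorem switchFiveInput : SwitchFiveInput := by
  intro W hW ha hc
  obtain ⟨hΔ, hss, hodd⟩ := hW
  obtain ⟨x, y, hx4, hy6, hx, hy, hxy⟩ := exists_two_data ⟨hΔ, hss, hodd⟩ ha hc
  obtain ⟨F⟩ := exists_familyData hΔ hss
  have hM : Odd ((15 * W.Δ) ^ 4) := Odd.pow (Odd.mul (by decide)
    (Int.not_even_iff_odd.mp fun h => hodd (even_iff_two_dvd.mp h)))
  obtain ⟨l, m, hlm, hl2, hm2, hmM, hlM, hL, hg⟩ :=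
    exists_param W.c₄ W.c₆ W.Δ F.α _ hM
  -- a member near `(0, 1)` two-adically and near `(1, 0)` modulo `(15 Δ)⁴`
  obtain ⟨c1, e1, w, hC4, hC6, hD, hc1, he1, hw⟩ :
      ∃ c1 e1 w, gC4 W.c₄ W.c₆ W.Δ l m = 2 ^ 40 * c1 ∧ gC6 W.c₄ W.c₆ W.Δ l m = 2 ^ 60 * e1 ∧
        gD W.c₄ W.c₆ W.Δ l m = 2 ^ 24 * w ∧ Odd c1 ∧ e1 % 4 = 3 ∧ Even w := by
    rw [hx4, hy6]
    obtain ⟨c1, e1, w, h1, h2, h3, h4, h5, h6⟩ :=
      members_two (Int.odd_iff.mp hx) hy hxy hl2 hm2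
    exact ⟨c1, e1, w, h1, h2, h3, Int.odd_iff.mpr h4, h5, h6⟩
  have hrel : c1 ^ 3 - e1 ^ 2 = 1728 * (W.Δ * w ^ 5) := by
    have h := forms_relation l m F
    rw [hC4, hC6, hD] at h
    refine mul_left_cancel₀ (show (2 : ℤ) ^ 120 ≠ 0 by norm_num) ?_
    linear_combination h
  -- near `(1, 0)` the invariants are those of `W`
  have hcong : ∀ n : ℕ, (n : ℤ) ∣ (15 * W.Δ) ^ 4 →
      (n : ℤ) ∣ gD W.c₄ W.c₆ W.Δ l m - 1 ∧ (n : ℤ) ∣ gC4 W.c₄ W.c₆ W.Δ l m - W.c₄ ∧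
        (n : ℤ) ∣ gC6 W.c₄ W.c₆ W.Δ l m - W.c₆ := fun n hn =>
    five_congr n _ _ _ l m (hn.trans hlM) (hn.trans hmM)
  obtain ⟨-, h27a, h27b⟩ := hcong 27 ⟨3 * 5 ^ 4 * W.Δ ^ 4, by push_cast; ring⟩
  rw [hC4] at h27a
  rw [hC6] at h27b
  -- an integral model `V` with invariants `c1`, `e1`
  obtain ⟨V, hV4, hV6⟩ := LT.Switch.exists_model c1 e1 hc1 he1 ⟨_, hrel⟩
    (exists_b_at_three W c1 e1 (by exact_mod_cast h27a) (by exact_mod_cast h27b))
  have hVΔ : V.Δ = W.Δ * w ^ 5 := by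
    refine mul_left_cancel₀ (show (1728 : ℤ) ≠ 0 by norm_num) ?_
    rw [V.c_relation, hV4, hV6, hrel]
  have hw0 : w ≠ 0 := fun h => hg (by rw [hD, h, mul_zero])
  -- the primes dividing `15 Δ` do not divide `w`
  have hwq : ∀ q : ℕ, q.Prime → (q : ℤ) ∣ (15 * W.Δ) ^ 4 → (q : ℤ) ∣ V.Δ → (q : ℤ) ∣ W.Δ := by
    intro q hq hqM hqV
    rw [hVΔ] at hqV
    refine ((Nat.prime_iff_prime_int.mp hq).dvd_or_dvd hqV).resolve_right fun h => ?_
    have h1 := (Nat.prime_iff_prime_int.mp hq).dvd_of_dvd_pow h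
    have h2 := (hcong q hqM).1
    rw [hD] at h2
    have h3 := dvd_sub (h1.mul_left (2 ^ 24)) h2
    rw [sub_sub_cancel] at h3
    exact hq.not_dvd_one (by exact_mod_cast h3)
  -- semistable, congruent modulo `5`, of even discriminant, divisible by `5` only if `W.Δ` is
  refine ⟨V, ⟨by rw [hVΔ]; exact mul_ne_zero hΔ (pow_ne_zero _ hw0), ?_, ?_,
    fun ℓ hℓ hgood hgood' h5 => ?_⟩, ?_⟩
  · intro q hq hqV hqc
    rw [hV4] at hqc
    by_cases hq2 : q = 2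
    · subst hq2
      obtain ⟨i, hi⟩ := hc1
      have : (2 : ℤ) ∣ c1 := by exact_mod_cast hqc
      omega
    have hqC : (q : ℤ) ∣ gC4 W.c₄ W.c₆ W.Δ l m := by rw [hC4]; exact hqc.mul_left _
    by_cases h30 : (q : ℤ) ∣ 30 * W.Δ
    · have hqM : (q : ℤ) ∣ (15 * W.Δ) ^ 4 := by
        refine dvd_pow ?_ (by norm_num)
        rw [show (30 : ℤ) * W.Δ = 2 * (15 * W.Δ) by ring] at h30
        exact ((Nat.prime_iff_prime_int.mp hq).dvd_or_dvd h30).resolve_left fun h =>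
          hq2 ((Nat.prime_dvd_prime_iff_eq hq Nat.prime_two).mp (by exact_mod_cast h))
      exact hss q hq (hwq q hq hqM hqV) (by simpa using dvd_sub hqC (hcong q hqM).2.1)
    · rw [hVΔ] at hqV
      have hqw := (Nat.prime_iff_prime_int.mp hq).dvd_of_dvd_pow
        (((Nat.prime_iff_prime_int.mp hq).dvd_or_dvd hqV).resolve_left fun h =>
          h30 (h.mul_left 30))
      exact not_dvd_member l m hq h30 hlm (by rw [hD]; exact hqw.mul_left _) F hqC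
  · exact fun h => hwq 5 (by norm_num)
      (dvd_pow (dvd_mul_of_dvd_left (by norm_num) _) (by norm_num)) h
  · exact apOfModel_congr_five F l m hL hg (by rw [hV4]; exact hC4) (by rw [hV6]; exact hC6)
      hℓ hgood hgood' h5
  · rw [hVΔ]
    exact dvd_mul_of_dvd_right (dvd_pow (even_iff_two_dvd.mp hw) (by norm_num)) _

end Fermat.Agent.AllSemistable
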