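import Fermat.Agent.RT.Frey.InputsSquarefree

/-!
# Inputs for modularity of all semistable models

A curve good at `2` is moved by switches at `3` and `5` to a curve with even discriminant. The type
of the reduction at `2` is read off the model: `a₁` odd is ordinary; `a₁` even is supersingular,
with trace `±2` exactly when `32` does not divide `c₄`.
-/

set_option autoImplicit false

namespace Fermat.Agent.AllSemistable

/-- `W'` is semistable with nonzero discriminant, has congruent traces modulo `p` at common good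
primes, and is bad at `p` only if `W` is. -/
def Linked (p : ℕ) (W W' : WeierstrassCurve ℤ) : Prop :=
  W'.Δ ≠ 0 ∧ W'.IsSemistableModel ∧ ((p : ℤ) ∣ W'.Δ → (p : ℤ) ∣ W.Δ) ∧
    ∀ ℓ : ℕ, ℓ.Prime → W.IsGoodPrimeFor ℓ → W'.IsGoodPrimeFor ℓ → ℓ ≠ p →
      (p : ℤ) ∣ W'.apOfModel ℓ - W.apOfModel ℓ

/-- Semistable, good at `2`. -/
def GoodTwo (W : WeierstrassCurve ℤ) : Prop :=
  W.Δ ≠ 0 ∧ W.IsSemistableModel ∧ ¬ (2 : ℤ) ∣ W.Δ

/-- Trace `±2` at `2`: move modulo `5` to multiplicative reduction at `2`. -/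
def SwitchFiveInput : Prop := ∀ W : WeierstrassCurve ℤ, GoodTwo W → Even W.a₁ → ¬ (32 : ℤ) ∣ W.c₄ →
  ∃ W' : WeierstrassCurve ℤ, Linked 5 W W' ∧ (2 : ℤ) ∣ W'.Δ

/-- Trace `0` at `2`: move modulo `3` to multiplicative reduction at `2`. -/
def SwitchTraceZeroInput : Prop := ∀ W : WeierstrassCurve ℤ, GoodTwo W → Even W.a₁ →
  (32 : ℤ) ∣ W.c₄ →
  ∃ W' : WeierstrassCurve ℤ, Linked 3 W W' ∧ (2 : ℤ) ∣ W'.Δ

/-- Ordinary at `2`: move modulo `3` to trace `±2`, keeping `W[5]` irreducible. -/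
def SwitchFromOrdinaryInput : Prop := ∀ W : WeierstrassCurve ℤ, GoodTwo W → Odd W.a₁ →
  W.ModRepIsIrreducible 5 →
  ∃ W' : WeierstrassCurve ℤ, Linked 3 W W' ∧ GoodTwo W' ∧ Even W'.a₁ ∧ ¬ (32 : ℤ) ∣ W'.c₄ ∧
    W'.ModRepIsIrreducible 5

/-- Trace `±2` at `2`: move modulo `3` to ordinary reduction, keeping `W[3]` irreducible. (Trace
`0`, also supersingular, is `SwitchTraceZeroInput`.) -/
def SwitchToOrdinaryInput : Prop := ∀ W : WeierstrassCurve ℤ, GoodTwo W → Even W.a₁ →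
  ¬ (32 : ℤ) ∣ W.c₄ → W.ModRepIsIrreducible 3 →
  ∃ W' : WeierstrassCurve ℤ, Linked 3 W W' ∧ GoodTwo W' ∧ Odd W'.a₁ ∧ W'.ModRepIsIrreducible 3

/-- Ordinary at `2` has irreducible `5`-torsion. -/
def OrdinaryIrreducibleInput : Prop := ∀ W : WeierstrassCurve ℤ, GoodTwo W → Odd W.a₁ →
  W.ModRepIsIrreducible 5

end Fermat.Agent.AllSemistable
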