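import Fermat.Agent.AllSemistable.Inputs
import Fermat.Agent.EC.AtP.Semistable
import Fermat.Agent.EC.FrobTrace.Main
import Fermat.Agent.LT.Switch.SplitType

/-!
# Irreducibility from one Frobenius trace

A semistable curve with reducible `E[p]`, `p` odd, has `aₗ ≡ 1 + ℓ (mod p)` at every good prime
`ℓ ≠ p`. So a curve with ordinary reduction at `2`, where the trace is `±1`, has irreducible
`5`-torsion.
-/

set_option autoImplicit false

open scoped WeierstrassCurve.Affine
open WeierstrassCurve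

namespace Fermat.Agent.AllSemistable

/-- A semistable curve with a good prime `ℓ ≠ p` where `aₗ ≢ 1 + ℓ` has irreducible `E[p]`. -/
theorem modRepIsIrreducible_of_apOfModel_ne {W : WeierstrassCurve ℤ} (hΔ : W.Δ ≠ 0)
    (hss : W.IsSemistableModel) {p : ℕ} (hp : p.Prime) (hp2 : p ≠ 2) {ℓ : ℕ} (hℓ : ℓ.Prime)
    (hℓp : ℓ ≠ p) (hgood : W.IsGoodPrimeFor ℓ)
    (hne : (W.apOfModel ℓ : ZMod p) ≠ 1 + ℓ) : W.ModRepIsIrreducible p := by
  have : Fact p.Prime := ⟨hp⟩
  by_contra hred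
  obtain ⟨A, hA⟩ := Arith.exists_liesOverPrime hℓ
  obtain ⟨σ, hσ⟩ := Arith.exists_isFrobeniusAt hA hℓ
  have hquad := EC.FrobTrace.frobenius_quadratic W hp hℓ hgood hℓp hA hσ
  have hk : ((1 - W.apOfModel ℓ + ℓ : ℤ) : ZMod p) ≠ 0 := fun h0 => hne (by
    push_cast at h0
    linear_combination -h0)
  -- a rational point, or a line with Galois-fixed quotient, makes `1` an eigenvalue of Frobenius
  rcases EC.AtP.rational_point_or_cofixedLine W hΔ (fun q hq h => hss q hq h.2 h.1) hp hp2 hred with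
    ⟨P, hP0, hP, hfix⟩ | ⟨N, -, -, htop, hN⟩
  · let x : Submodule.torsionBy ℤ ((W.map (Int.castRingHom ℚ))⁄(AlgebraicClosure ℚ)).Point p :=
      ⟨P, (Submodule.mem_torsionBy_iff _ _).mpr ((natCast_zsmul P p).trans hP)⟩
    have hx : σ • x = x := Subtype.ext (hfix σ)
    have h := hquad x
    rw [hx, hx] at h
    have h' : ((1 - W.apOfModel ℓ + ℓ : ℤ) : ZMod p) • x = 0 := by
      rw [Int.cast_smul_eq_zsmul, add_smul, sub_smul, one_smul]
      exact h
    exact hP0 (congrArg Subtype.val ((smul_eq_zero.mp h').resolve_left hk))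
  · refine htop (eq_top_iff.mpr fun x _ => ?_)
    have h1 := hN σ x
    have h2 := hN σ (σ • x)
    have e : ((1 - W.apOfModel ℓ + ℓ : ℤ) : ZMod p) • x =
        W.apOfModel ℓ • (σ • x - x) - (σ • x - x) - (σ • (σ • x) - σ • x) := by
      rw [Int.cast_smul_eq_zsmul]
      have h := hquad x
      generalize σ • (σ • x) = z at h ⊢
      generalize σ • x = y at h ⊢
      linear_combination (norm := module) h
    have hm : ((1 - W.apOfModel ℓ + ℓ : ℤ) : ZMod p) • x ∈ N := by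
      rw [e]
      exact N.sub_mem (N.sub_mem (zsmul_mem h1 _) h1) h2
    exact (N.smul_mem_iff hk).mp hm

theorem smoothSet_two_ordinary : ∀ a₂ a₃ a₄ a₆ : ZMod 2,
    (⟨1, a₂, a₃, a₄, a₆⟩ : WeierstrassCurve (ZMod 2)).Δ ≠ 0 →
    (LT.Switch.smoothSet 1 a₂ a₃ a₄ a₆).card = 1 ∨
    (LT.Switch.smoothSet 1 a₂ a₃ a₄ a₆).card = 3 := by
  decide +kernel

/-- Ordinary reduction at `2`: the trace is `±1`. -/
theorem apOfModel_two_of_odd {W : WeierstrassCurve ℤ} (h2 : ¬ (2 : ℤ) ∣ W.Δ) (ha : Odd W.a₁) :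
    W.apOfModel 2 = 1 ∨ W.apOfModel 2 = -1 := by
  have h1 : (W.reductionMod 2).a₁ = 1 := by
    obtain ⟨k, hk⟩ := ha
    show ((W.a₁ : ℤ) : ZMod 2) = 1
    rw [hk]; push_cast
    rw [show (2 : ZMod 2) = 0 from rfl, zero_mul, zero_add]
  have hΔ2 : (W.reductionMod 2).Δ ≠ 0 := by
    rw [WeierstrassCurve.reductionMod, map_Δ]
    exact fun h => h2 ((ZMod.intCast_zmod_eq_zero_iff_dvd _ 2).mp h)
  have hcard : (W.reductionMod 2).card = (LT.Switch.smoothSet 1 (W.reductionMod 2).a₂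
      (W.reductionMod 2).a₃ (W.reductionMod 2).a₄ (W.reductionMod 2).a₆).card + 1 := by
    rw [WeierstrassCurve.card, LT.Switch.natCard_point_eq_smoothSet, h1]
  have hd : (⟨1, (W.reductionMod 2).a₂, (W.reductionMod 2).a₃, (W.reductionMod 2).a₄,
      (W.reductionMod 2).a₆⟩ : WeierstrassCurve (ZMod 2)).Δ ≠ 0 := by
    rw [← h1]; exact hΔ2
  rw [WeierstrassCurve.apOfModel, WeierstrassCurve.traceOfFrobenius, hcard, Nat.card_zmod]
  rcases smoothSet_two_ordinary _ _ _ _ hd with h | h <;> rw [h]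
  · exact Or.inl rfl
  · exact Or.inr rfl

/-- Ordinary reduction at `2` forces irreducible `5`-torsion. -/
theorem ordinaryIrreducibleInput : OrdinaryIrreducibleInput := by
  intro W hW ha
  refine modRepIsIrreducible_of_apOfModel_ne hW.1 hW.2.1 (by norm_num) (by norm_num)
    Nat.prime_two (by norm_num) hW.2.2 ?_
  rcases apOfModel_two_of_odd hW.2.2 ha with h | h <;> rw [h] <;> decide

end Fermat.Agent.AllSemistable
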