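import Fermat.Agent.AllSemistable.Inputs
import Fermat.Agent.RT.Frey.ModularSquarefree

/-!
# Modularity of all semistable models, from the switches

`isModular_of_inputs`: every semistable model is modular of exactly its conductor level, and
`residual_three`: it is residually modular at `3` of a squarefree level, both from the inputs of
`AllSemistable/Inputs`, which `AllSemistable/Modular` supplies.

Even discriminant is `isModular_of_even_disc` of `RT/Frey/ModularSquarefree`. For a curve good at
`2` with irreducible `W[3]` modularity is lifted back along switches (`isModular_of_linked`), by the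
type of the reduction at `2`:

* trace `±2` with irreducible `W[5]`: switch mod `5` to even discriminant (`isModular_of_five`);
* ordinary: `W[5]` is then irreducible; switch mod `3` to the previous case
  (`isModular_of_ordinary`);
* trace `0`: switch mod `3` to even discriminant (`isModular_of_good_three`);
* trace `±2` with reducible `W[5]`: switch mod `3` to ordinary (`isModular_of_good_three`).

A curve with reducible `W[3]` has irreducible `W[5]` (S51), so the switch of `RT/Frey/SwitchEven`
at `5` leads to a curve with irreducible `W[3]`.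
-/

set_option autoImplicit false

namespace Fermat.Agent.AllSemistable

open Fermat.Agent.RT.Frey

/-! ## Lifting across a link -/

/-- An exactly modular linked curve makes `W[p]` residually modular at a squarefree level. -/
theorem residual_of_linked {p : ℕ} (hp : p.Prime) {W W' : WeierstrassCurve ℤ}
    (hl : Linked p W W') (h : Mlc1IsModularModelOfExactConductorLevel W') :
    ∃ M : ℕ, 0 < M ∧ Squarefree M ∧ (p ∣ M → (p : ℤ) ∣ W.Δ) ∧
      W.IsResiduallyModularOfLevel p M := by
  obtain ⟨-, -, hbad, hcong⟩ := hl
  obtain ⟨N, hN, hsq, hsupp, hres⟩ := exists_residuallyModular_of_congruent hp h hcong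
  exact ⟨N, hN, hsq, fun hd => hbad (hsupp p hp hd), hres⟩

/-- Modularity of exactly the conductor level passes back along a link at `p = 3, 5`, if `W[p]` is
irreducible. -/
theorem isModular_of_linked (hlift : LiftingSquarefreeInput) {p : ℕ} (hp : p = 3 ∨ p = 5)
    {W W' : WeierstrassCurve ℤ} (hΔ : W.Δ ≠ 0) (hW : W.IsSemistableModel)
    (hirr : W.ModRepIsIrreducible p) (hl : Linked p W W')
    (h : Mlc1IsModularModelOfExactConductorLevel W') :
    Mlc1IsModularModelOfExactConductorLevel W := by
  obtain ⟨M, -, hsq, hbad, hres⟩ :=
    residual_of_linked (by rcases hp with rfl | rfl <;> norm_num) hl h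
  exact hlift p hp W hΔ hW hirr M hsq hbad hres

/-! ## Curves good at `2` -/

variable (hres3 : ResidualThreeEvenInput) (hlift : LiftingSquarefreeInput) (hfive : SwitchFiveInput)
  (hzero : SwitchTraceZeroInput) (hord : SwitchFromOrdinaryInput) (hss : SwitchToOrdinaryInput)
  (hirr5 : OrdinaryIrreducibleInput)

include hres3 hlift hfive

/-- Trace `±2` at `2` with irreducible `W[5]`: by the switch at `5` to even discriminant. -/
theorem isModular_of_five {W : WeierstrassCurve ℤ} (hW : GoodTwo W) (ha : Even W.a₁)
    (hc : ¬ (32 : ℤ) ∣ W.c₄) (h5 : W.ModRepIsIrreducible 5) :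
    Mlc1IsModularModelOfExactConductorLevel W := by
  obtain ⟨W', hl, h2⟩ := hfive W hW ha hc
  exact isModular_of_linked hlift (Or.inr rfl) hW.1 hW.2.1 h5 hl
    (isModular_of_even_disc hres3 hlift W' hl.1 hl.2.1 h2)

include hord hirr5

/-- Ordinary at `2` with irreducible `W[3]`: by the switch at `3` to the case of
`isModular_of_five`. -/
theorem isModular_of_ordinary {W : WeierstrassCurve ℤ} (hW : GoodTwo W) (ha : Odd W.a₁)
    (h3 : W.ModRepIsIrreducible 3) : Mlc1IsModularModelOfExactConductorLevel W := by
  obtain ⟨W', hl, hW', ha', hc', h5'⟩ := hord W hW ha (hirr5 W hW ha)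
  exact isModular_of_linked hlift (Or.inl rfl) hW.1 hW.2.1 h3 hl
    (isModular_of_five hres3 hlift hfive hW' ha' hc' h5')

include hzero hss

/-- Good at `2` with irreducible `W[3]`: by the type of the reduction at `2`. -/
theorem isModular_of_good_three {W : WeierstrassCurve ℤ} (hW : GoodTwo W)
    (h3 : W.ModRepIsIrreducible 3) : Mlc1IsModularModelOfExactConductorLevel W := by
  rcases Int.even_or_odd W.a₁ with ha | ha
  · -- supersingular: the trace is `0` exactly when `32 ∣ c₄`
    by_cases hc : (32 : ℤ) ∣ W.c₄
    · obtain ⟨W', hl, h2⟩ := hzero W hW ha hc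
      exact isModular_of_linked hlift (Or.inl rfl) hW.1 hW.2.1 h3 hl
        (isModular_of_even_disc hres3 hlift W' hl.1 hl.2.1 h2)
    · by_cases h5 : W.ModRepIsIrreducible 5
      · exact isModular_of_five hres3 hlift hfive hW ha hc h5
      · obtain ⟨W', hl, hW', ha', h3'⟩ := hss W hW ha hc h3
        exact isModular_of_linked hlift (Or.inl rfl) hW.1 hW.2.1 h3 hl
          (isModular_of_ordinary hres3 hlift hfive hord hirr5 hW' ha' h3')
  · exact isModular_of_ordinary hres3 hlift hfive hord hirr5 hW ha h3

/-! ## Every semistable model -/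

/-- Irreducible `W[3]`: even discriminant, or good at `2`. -/
theorem isModular_of_irreducible_three {W : WeierstrassCurve ℤ} (hΔ : W.Δ ≠ 0)
    (hW : W.IsSemistableModel) (h3 : W.ModRepIsIrreducible 3) :
    Mlc1IsModularModelOfExactConductorLevel W := by
  by_cases h2 : (2 : ℤ) ∣ W.Δ
  · exact isModular_of_even_disc hres3 hlift W hΔ hW h2
  · exact isModular_of_good_three hres3 hlift hfive hzero hord hss hirr5 ⟨hΔ, hW, h2⟩ h3

/-- Every semistable model is modular of exactly its conductor level. -/
theorem isModular_of_inputs (W : WeierstrassCurve ℤ) (hΔ : W.Δ ≠ 0)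
    (hW : W.IsSemistableModel) : Mlc1IsModularModelOfExactConductorLevel W := by
  rcases S51.result W hΔ hW with h3 | h5
  · exact isModular_of_irreducible_three hres3 hlift hfive hzero hord hss hirr5 hΔ hW h3
  -- `W[5]` is irreducible: a partner with irreducible `W'[3]` and congruent traces mod `5`
  obtain ⟨W', hΔ', hW', h3', -, h5', hcong⟩ := Switch.three_five_switch_even W hΔ hW
  exact isModular_of_linked hlift (Or.inr rfl) hΔ hW h5
    ⟨hΔ', hW', by exact_mod_cast h5', by exact_mod_cast hcong⟩
    (isModular_of_irreducible_three hres3 hlift hfive hzero hord hss hirr5 hΔ' hW' h3')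

/-- Residual modularity at `3` at a squarefree level, divisible by `3` only if the discriminant is:
`W` is linked to itself. -/
theorem residual_three (W : WeierstrassCurve ℤ) (hΔ : W.Δ ≠ 0) (hW : W.IsSemistableModel) :
    ∃ M : ℕ, 0 < M ∧ Squarefree M ∧ (3 ∣ M → (3 : ℤ) ∣ W.Δ) ∧
      W.IsResiduallyModularOfLevel 3 M :=
  residual_of_linked Nat.prime_three (W' := W)
    ⟨hΔ, hW, id, fun ℓ _ _ _ _ => by rw [sub_self]; exact dvd_zero _⟩
    (isModular_of_inputs hres3 hlift hfive hzero hord hss hirr5 W hΔ hW)

end Fermat.Agent.AllSemistable
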