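import Fermat.Agent.AllSemistable.Inputs
import Fermat.Agent.LT.Switch.Main

/-!
# A member of the Hesse pencil with a prescribed class at `2`

For `N` odd and divisible by `15 Δ`: the parameter is `(1, 0)` modulo `N⁴` and `(ta, 1)` modulo
`2²⁴`. If the invariants of the member are `4⁴ c₁`, `4⁶ e₁` and `hP = 2⁸ w`, an integral model
with invariants `c₁`, `e₁` has discriminant `Δ w³`; for a semistable curve it is semistable and
linked modulo `3`, provided `c₁` is odd whenever that discriminant is even.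
-/

set_option autoImplicit false

namespace Fermat.Agent.AllSemistable

open Fermat.Agent.LT.Switch

/-- A parameter near `(1, 0)` modulo `N⁴` and near `(ta, 1)` at `2`. -/
theorem exists_parameter_three {N : ℤ} (hN : Odd N) (ta : ℤ) :
    ∃ a b : ℤ, (2 : ℤ) ^ 24 ∣ a - ta ∧ (2 : ℤ) ^ 24 ∣ b - 1 ∧ IsCoprime a b ∧
      N ^ 4 ∣ a - 1 ∧ N ^ 4 ∣ b := by
  obtain ⟨k, rfl⟩ := hN
  obtain ⟨u, v, huv⟩ : IsCoprime ((2 * k + 1) ^ 4) ((2 : ℤ) ^ 24) :=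
    IsCoprime.pow ⟨1, -k, by ring⟩
  refine ⟨1 + u * (2 * k + 1) ^ 4 * (ta - 1), u * (2 * k + 1) ^ 4,
    ⟨-v * (ta - 1), by linear_combination (ta - 1) * huv⟩, ⟨-v, by linear_combination huv⟩,
    ⟨1, -(ta - 1), by ring⟩, ⟨u * (ta - 1), by ring⟩, ⟨u, by ring⟩⟩

/-- A parameter near `(1, 0)` modulo `N⁴`, with the scaled invariants of its member. -/
structure ThreeClass (W : WeierstrassCurve ℤ) (N a b c₁ e₁ w : ℤ) : Prop where
  hN : 15 * W.Δ ∣ N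
  coprime : IsCoprime a b
  ha : N ^ 4 ∣ a - 1
  hb : N ^ 4 ∣ b
  hC : hC4 W.c₄ W.c₆ a b = 4 ^ 4 * c₁
  hE : hC6 W.c₄ W.c₆ a b = 4 ^ 6 * e₁
  hP' : hP W.c₄ W.c₆ a b = 2 ^ 8 * w

namespace ThreeClass

variable {W V : WeierstrassCurve ℤ} {N a b c₁ e₁ w : ℤ} (h : ThreeClass W N a b c₁ e₁ w)

include h

theorem rel : c₁ ^ 3 - e₁ ^ 2 = 1728 * (W.Δ * w ^ 3) := by
  have e := hC4_cube_sub_hC6_sq W.c₄ W.c₆ a b
  rw [h.hC, h.hE, h.hP', ← W.c_relation] at e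
  refine mul_left_cancel₀ (show ((4 : ℤ) ^ 12) ≠ 0 by norm_num) ?_
  linear_combination e

theorem dvd_N_three : ((3 : ℕ) : ℤ) ∣ N :=
  (dvd_mul_of_dvd_left (by norm_num) _).trans h.hN

/-- At the divisors of `N` the member is congruent to the curve. -/
theorem congr {q : ℕ} (hqN : (q : ℤ) ∣ N) :
    (q : ℤ) ^ 4 ∣ hP W.c₄ W.c₆ a b - 1 ∧ (q : ℤ) ^ 4 ∣ hC4 W.c₄ W.c₆ a b - W.c₄ ∧
      (q : ℤ) ^ 4 ∣ hC6 W.c₄ W.c₆ a b - W.c₆ := by
  have := congr_base (q ^ 4) W.c₄ W.c₆ a b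
    (by push_cast; exact (pow_dvd_pow_of_dvd hqN 4).trans h.ha)
    (by push_cast; exact (pow_dvd_pow_of_dvd hqN 4).trans h.hb)
  push_cast at this
  exact this

theorem not_dvd_w {q : ℕ} (hq : q.Prime) (hqN : (q : ℤ) ∣ N) : ¬ (q : ℤ) ∣ w := fun hw =>
  (Nat.prime_iff_prime_int.mp hq).not_dvd_one (by
    have h1 := (dvd_pow_self (q : ℤ) four_ne_zero).trans (h.congr hqN).1
    rw [h.hP'] at h1
    exact (dvd_iff_dvd_of_dvd_sub h1).mp (hw.mul_left _))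

theorem w_ne_zero : w ≠ 0 := fun hw =>
  h.not_dvd_w Nat.prime_three h.dvd_N_three (hw ▸ dvd_zero _)

/-- The condition at `3` for a model. -/
theorem exists_beta (hW : W.IsSemistableModel) :
    ∃ β : ℤ, 3 ∣ β ^ 2 - c₁ ∧ 27 ∣ β ^ 3 - 3 * β * c₁ - 2 * e₁ := by
  obtain ⟨-, hC, hE⟩ := h.congr h.dvd_N_three
  refine exists_model_at_three (Or.inr rfl) h.hC h.hE h.rel (fun h3 hd =>
    hW 3 Nat.prime_three h3
      ((dvd_iff_dvd_of_dvd_sub ((dvd_pow_self _ four_ne_zero).trans hC)).mp hd))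
    fun _ => ⟨by exact_mod_cast hC, by exact_mod_cast hE⟩

variable (hc : V.c₄ = c₁) (he : V.c₆ = e₁)

include hc he

theorem delta : V.Δ = W.Δ * w ^ 3 := by
  refine mul_left_cancel₀ (show (1728 : ℤ) ≠ 0 by norm_num) ?_
  rw [V.c_relation, hc, he, h.rel]

/-- A prime of `N` dividing the discriminant of the member divides that of the curve. -/
theorem dvd_delta_of_dvd {q : ℕ} (hq : q.Prime) (hqN : (q : ℤ) ∣ N) (hd : (q : ℤ) ∣ V.Δ) :
    (q : ℤ) ∣ W.Δ := by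
  have hqz := Nat.prime_iff_prime_int.mp hq
  rw [h.delta hc he] at hd
  exact (hqz.dvd_mul.mp hd).resolve_right fun hw => h.not_dvd_w hq hqN (hqz.dvd_of_dvd_pow hw)

theorem delta_ne_zero (hΔ : W.Δ ≠ 0) : V.Δ ≠ 0 := by
  rw [h.delta hc he]
  exact mul_ne_zero hΔ (pow_ne_zero _ h.w_ne_zero)

theorem isSemistableModel (hW : W.IsSemistableModel) (h2 : (2 : ℤ) ∣ V.Δ → ¬ (2 : ℤ) ∣ c₁) :
    V.IsSemistableModel := by
  intro q hq hqD hqc
  rw [hc] at hqc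
  have hqz := Nat.prime_iff_prime_int.mp hq
  by_cases hq2 : q = 2
  · subst hq2; exact h2 hqD hqc
  have hqC : (q : ℤ) ∣ hC4 W.c₄ W.c₆ a b := h.hC ▸ hqc.mul_left _
  by_cases hqN : (q : ℤ) ∣ N
  · refine hW q hq (h.dvd_delta_of_dvd hc he hq hqN hqD) ?_
    simpa using dvd_sub hqC ((dvd_pow_self _ four_ne_zero).trans (h.congr hqN).2.1)
  · have hqΔ : ¬ (q : ℤ) ∣ W.Δ := fun hd => hqN ((hd.mul_left 15).trans h.hN)
    have hq3 : q ≠ 3 := fun e => hqN (e ▸ h.dvd_N_three)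
    refine not_dvd_hC4 hq hq2 hq3 hqΔ h.coprime ?_ hqC
    rw [h.hP']
    rw [h.delta hc he] at hqD
    exact (hqz.dvd_of_dvd_pow ((hqz.dvd_mul.mp hqD).resolve_left hqΔ)).mul_left _

/-- The member as a member of the pencil. -/
def intMember (hΔ : W.Δ ≠ 0) : IntMember W V where
  a := a
  m := b
  k := 4
  hk := by norm_num
  hc := by rw [hc]; exact h.hC
  he := by rw [he]; exact h.hE
  hP0 := by rw [h.hP']; exact mul_ne_zero (by norm_num) h.w_ne_zero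
  hΔ := hΔ
  hΔ' := h.delta_ne_zero hc he hΔ

theorem linked (hΔ : W.Δ ≠ 0) (hW : W.IsSemistableModel)
    (h2 : (2 : ℤ) ∣ V.Δ → ¬ (2 : ℤ) ∣ c₁) : Linked 3 W V := by
  exact ⟨h.delta_ne_zero hc he hΔ, h.isSemistableModel hc he hW h2,
    h.dvd_delta_of_dvd hc he Nat.prime_three h.dvd_N_three,
    fun ℓ hℓ hg hg' h3 => (h.intMember hc he hΔ).torsionEquiv.dvd_apOfModel_sub hℓ hg hg' h3⟩

theorem modRepIsIrreducible_three (hΔ : W.Δ ≠ 0) (h3 : W.ModRepIsIrreducible 3) :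
    V.ModRepIsIrreducible 3 :=
  (h.intMember hc he hΔ).torsionEquiv.modRepIsIrreducible h3

/-- A good prime dividing `N` stays good with the same trace. -/
theorem good_apOfModel {q : ℕ} (hq : q.Prime) (hq2 : q ≠ 2) (hq3 : q ≠ 3) (hqN : (q : ℤ) ∣ N)
    (hg : W.IsGoodPrimeFor q) : V.IsGoodPrimeFor q ∧ V.apOfModel q = W.apOfModel q := by
  have : Fact q.Prime := ⟨hq⟩
  refine ⟨fun hd => hg (h.dvd_delta_of_dvd hc he hq hqN hd), apOfModel_congr ?_⟩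
  have hne : ∀ {k : ℕ}, k.Prime → q ≠ k → (k : ZMod q) ≠ 0 := fun {k} hk hqk h0 => hqk
    ((Nat.prime_dvd_prime_iff_eq hq hk).mp ((ZMod.natCast_eq_zero_iff k q).mp h0))
  have h4 : (4 : ZMod q) ≠ 0 := by
    rw [show (4 : ZMod q) = ((2 : ℕ) : ZMod q) * ((2 : ℕ) : ZMod q) by push_cast; norm_num]
    exact mul_ne_zero (hne Nat.prime_two hq2) (hne Nat.prime_two hq2)
  obtain ⟨-, hC, hE⟩ := h.congr hqN
  have key : ∀ {x y : ℤ} (n : ℕ), (q : ℤ) ^ 4 ∣ (4 : ℤ) ^ n * x - y →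
      (x : ZMod q) = (4 : ZMod q)⁻¹ ^ n * (y : ZMod q) := fun {x y} n hd => by
    have e := (ZMod.intCast_zmod_eq_zero_iff_dvd _ q).mpr
      ((dvd_pow_self (q : ℤ) four_ne_zero).trans hd)
    push_cast at e
    rw [inv_pow, eq_inv_mul_iff_mul_eq₀ (pow_ne_zero _ h4), sub_eq_zero.mp e]
  rw [h.hC] at hC
  rw [h.hE] at hE
  exact natCard_point_eq_of_scale (by exact_mod_cast hne Nat.prime_two hq2)
    (by exact_mod_cast hne Nat.prime_three hq3) _ _ (inv_ne_zero h4)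
    (by rw [reductionMod_c₄, reductionMod_c₄, hc]; exact key 4 hC)
    (by rw [reductionMod_c₆, reductionMod_c₆, he]; exact key 6 hE)

end ThreeClass

/-- A parameter in the class of `ta` at `2` and near `(1, 0)` at `N`, with its invariants and what
the class says about them. -/
theorem exists_threeClass {W : WeierstrassCurve ℤ} {N ta : ℤ} (hN : Odd N) (hdvd : 15 * W.Δ ∣ N)
    {P : ℤ → ℤ → ℤ → Prop}
    (hta : ∀ a b : ℤ, (2 : ℤ) ^ 24 ∣ a - ta → (2 : ℤ) ^ 24 ∣ b - 1 →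
      ∃ c₁ e₁ w : ℤ, hC4 W.c₄ W.c₆ a b = 4 ^ 4 * c₁ ∧ hC6 W.c₄ W.c₆ a b = 4 ^ 6 * e₁ ∧
        hP W.c₄ W.c₆ a b = 256 * w ∧ P c₁ e₁ w) :
    ∃ a b c₁ e₁ w : ℤ, ThreeClass W N a b c₁ e₁ w ∧ P c₁ e₁ w := by
  obtain ⟨a, b, ha', hb', hab, hNa, hNb⟩ := exists_parameter_three hN ta
  obtain ⟨c₁, e₁, w, hC, hE, hP', hPw⟩ := hta a b ha' hb'
  exact ⟨a, b, c₁, e₁, w, ⟨hdvd, hab, hNa, hNb, hC, hE, by rw [hP']; norm_num⟩, hPw⟩

end Fermat.Agent.AllSemistable
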