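import Fermat.Agent.AllSemistable.MemberThree
import Fermat.Agent.AllSemistable.ClassTwo
import Fermat.Agent.AllSemistable.IrreducibleFive
import Fermat.Agent.EC.Rep.Residual

/-!
# The switches at `3`

For a semistable curve good at `2` the Hesse pencil has a member, linked modulo `3`, with trace
`±2` at `2` and irreducible `5`-torsion if the curve is ordinary there with irreducible `5`-torsion,
an ordinary one with irreducible `3`-torsion if its trace is `±2` and its `3`-torsion irreducible,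
and one multiplicative at `2` if its trace is `0`.
-/

set_option autoImplicit false

namespace Fermat.Agent.AllSemistable

open Fermat.Agent.LT.Switch

theorem odd_fifteen_mul_delta {W : WeierstrassCurve ℤ} (hD : ¬ (2 : ℤ) ∣ W.Δ) :
    Odd (15 * W.Δ) :=
  (show Odd (15 : ℤ) by decide).mul
    (Int.not_even_iff_odd.mp fun h => hD (even_iff_two_dvd.mp h))

/-- The switch at `3` from trace `0` at `2`. -/
theorem switchTraceZeroInput : SwitchTraceZeroInput := fun W ⟨hΔ, hW, hD⟩ ha hc32 => by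
  obtain ⟨ta, hta⟩ := class_two_zero W hD ha hc32
  obtain ⟨a, b, c₁, e₁, w, h, hw, hc₁, he₁⟩ :=
    exists_threeClass (odd_fifteen_mul_delta hD) dvd_rfl hta
  obtain ⟨V, hc, he, -⟩ :=
    exists_model_odd c₁ e₁ hc₁ he₁ ⟨_, h.rel⟩ (h.exists_beta hW)
  have h2c : ¬ (2 : ℤ) ∣ c₁ := fun h2 => (Int.not_even_iff_odd.mpr hc₁) (even_iff_two_dvd.mpr h2)
  refine ⟨V, h.linked hc he hΔ hW fun _ => h2c, ?_⟩
  rw [h.delta hc he]
  exact ((show (2 : ℤ) ∣ w by omega).trans (dvd_pow_self w three_ne_zero)).mul_left _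

/-- A member with odd `w` is linked to the curve at `3` and is good at `2`. -/
theorem ThreeClass.goodTwo {W V : WeierstrassCurve ℤ} {N a b c₁ e₁ w : ℤ}
    (h : ThreeClass W N a b c₁ e₁ w) (hc : V.c₄ = c₁) (he : V.c₆ = e₁) (hG : GoodTwo W)
    (hw : Odd w) : Linked 3 W V ∧ GoodTwo V := by
  obtain ⟨hΔ, hW, hD⟩ := hG
  have h2 : ¬ (2 : ℤ) ∣ V.Δ := by
    rw [h.delta hc he, ← even_iff_two_dvd, Int.not_even_iff_odd]
    exact (Int.not_even_iff_odd.mp fun h' => hD (even_iff_two_dvd.mp h')).mul hw.pow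
  have hl := h.linked hc he hΔ hW fun h' => absurd h' h2
  exact ⟨hl, hl.1, hl.2.1, h2⟩

/-- The switch at `3` from trace `±2` at `2` to ordinary reduction. -/
theorem switchToOrdinaryInput : SwitchToOrdinaryInput := fun W hG ha hc32 h3 => by
  obtain ⟨ta, hta⟩ := class_two_supersingular W hG.2.2 ha hc32
  obtain ⟨a, b, c₁, e₁, w, h, hw, hc₁, he₁⟩ :=
    exists_threeClass (odd_fifteen_mul_delta hG.2.2) dvd_rfl hta
  obtain ⟨V, hc, he, ha₁⟩ :=
    exists_model_odd c₁ e₁ hc₁ he₁ ⟨_, h.rel⟩ (h.exists_beta hG.2.1)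
  obtain ⟨hl, hV⟩ := h.goodTwo hc he hG hw
  exact ⟨V, hl, hV, ha₁, h.modRepIsIrreducible_three hc he hG.1 h3⟩

/-- The switch at `3` from ordinary reduction to trace `±2`, keeping the `5`-torsion
irreducible. -/
theorem switchFromOrdinaryInput : SwitchFromOrdinaryInput := fun W hG ha h5 => by
  have : Fact (Nat.Prime 5) := ⟨by norm_num⟩
  obtain ⟨q, hq, hqS, hgood, hq5, htr⟩ :=
    EC.Rep.exists_apOfModel_ne (W := W) (p := 5) (by norm_num) h5 hG.1 {2, 3}
  simp only [Finset.mem_insert, Finset.mem_singleton, not_or] at hqS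
  have hqo : Odd (q : ℤ) := by exact_mod_cast hq.odd_of_ne_two hqS.1
  obtain ⟨ta, hta⟩ := class_two_ordinary W hG.2.2 ha
  obtain ⟨a, b, c₁, e₁, w, h, hw, hc₁, he₁⟩ :=
    exists_threeClass ((odd_fifteen_mul_delta hG.2.2).mul hqo) (dvd_mul_right _ _) hta
  obtain ⟨V, hc, he, ha₁⟩ :=
    exists_model_even c₁ e₁ (by omega) he₁ (h.exists_beta hG.2.1)
  obtain ⟨hl, hV⟩ := h.goodTwo hc he hG hw
  obtain ⟨hVq, hap⟩ := h.good_apOfModel hc he hq hqS.1 hqS.2 (dvd_mul_left _ _) hgood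
  refine ⟨V, hl, hV, ha₁, by rw [hc]; omega, ?_⟩
  exact modRepIsIrreducible_of_apOfModel_ne hV.1 hV.2.1 Fact.out (by norm_num) hq hq5 hVq
    (by rw [hap]; exact htr)

end Fermat.Agent.AllSemistable
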