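import Fermat.Agent.AllSemistable.Main
import Fermat.Agent.AllSemistable.IrreducibleFive
import Fermat.Agent.AllSemistable.SwitchThree
import Fermat.Agent.AllSemistable.FiveMember
import Fermat.Agent.RT.Frey.Residual
import Fermat.Agent.RT.Frey.Lifting

/-!
# Modularity of semistable elliptic curves over `ℚ`

`isModular_of_semistable`: every semistable integral model with nonzero discriminant is modular of
exactly its conductor level, and `residuallyModular_three`: it is residually modular at `3` of a
squarefree level, divisible by `3` only if the discriminant is. They are used for S50, S59, S60,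
in `AllSemistable/WeightOne` and in `RT/Frey/LowerAny`.

They are the theorems of `AllSemistable/Main` with its inputs supplied:

* `residualThreeEvenInput` (`RT/Frey/Residual`): residual modularity at `3`, even discriminant;
* `liftingSquarefreeInput` (`RT/Frey/Lifting`): modularity lifting at `3` and `5`;
* `switchFiveInput` (`AllSemistable/FiveMember`): the switch mod `5` to even discriminant;
* `switchTraceZeroInput`, `switchFromOrdinaryInput`, `switchToOrdinaryInput`
  (`AllSemistable/SwitchThree`): the switches mod `3`;
* `ordinaryIrreducibleInput` (`AllSemistable/IrreducibleFive`): ordinary at `2` gives irreducible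
  `5`-torsion.
-/

set_option autoImplicit false

namespace Fermat.Agent.AllSemistable

open Fermat.Agent.RT.Frey

/-- Every semistable model is modular of exactly its conductor level. -/
theorem isModular_of_semistable (W : WeierstrassCurve ℤ) (hΔ : W.Δ ≠ 0) (hW : W.IsSemistableModel) :
    Mlc1IsModularModelOfExactConductorLevel W :=
  isModular_of_inputs residualThreeEvenInput liftingSquarefreeInput switchFiveInput
    switchTraceZeroInput switchFromOrdinaryInput switchToOrdinaryInput ordinaryIrreducibleInput
    W hΔ hW

/-- Every semistable model is residually modular at `3` at a squarefree level, divisible by `3` only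
if the discriminant is. -/
theorem residuallyModular_three (W : WeierstrassCurve ℤ) (hΔ : W.Δ ≠ 0)
    (hW : W.IsSemistableModel) :
    ∃ M : ℕ, 0 < M ∧ Squarefree M ∧ (3 ∣ M → (3 : ℤ) ∣ W.Δ) ∧
      W.IsResiduallyModularOfLevel 3 M :=
  residual_three residualThreeEvenInput liftingSquarefreeInput switchFiveInput switchTraceZeroInput
    switchFromOrdinaryInput switchToOrdinaryInput ordinaryIrreducibleInput W hΔ hW

end Fermat.Agent.AllSemistable
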