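import Fermat.Agent.AllSemistable.Modular
import Fermat.Agent.HeckeDuality.DeligneSerre
import Fermat.Agent.HeckeDuality.EigenConverse
import Fermat.Agent.IntegralStructure.Main

/-!
# An eigensystem of weight one type congruent to a semistable curve modulo three

`exists_eigensystem_chiNegThree` (S46):

1. A semistable curve is modular of squarefree level `N` (`AllSemistable/Modular`).
2. Removing the coefficients of index not prime to `N` gives an integral form of level `N²`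
   (`exists_integral_form`).
3. As `χ₋₃(ℓ) ≡ ℓ` modulo `3`, its coefficients are congruent to the eigensystem with the same
   eigenvalues and character `χ₋₃` (`eigSeq_congr`), which it thus realises.
-/

set_option autoImplicit false

noncomputable section

open CongruenceSubgroup ModularFormClass EisensteinWeightOne
open Fermat.Agent.HeckeDuality (SeqEigen eulerWeight)
open Fermat.Agent.Newforms (levelRaise levelIncl)

namespace Fermat.Agent.AllSemistable

/-- The coefficient at the `r`-th power of a prime with eigenvalue `t` and weight `e`. -/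
def powSeq (t e : ℤ) : ℕ → ℤ
  | 0 => 1
  | 1 => t
  | r + 2 => t * powSeq t e (r + 1) - e * powSeq t e r

/-- The sequence with eigenvalues `t` and weights `e`. -/
def eigSeq (t e : ℕ → ℤ) (n : ℕ) : ℤ :=
  if n = 0 then 0 else n.factorization.prod fun p r => powSeq (t p) (e p) r

theorem eigSeq_zero (t e : ℕ → ℤ) : eigSeq t e 0 = 0 := if_pos rfl

theorem eigSeq_one (t e : ℕ → ℤ) : eigSeq t e 1 = 1 := by
  simp [eigSeq]

theorem eigSeq_pow_mul (t e : ℕ → ℤ) {ℓ : ℕ} (hℓ : ℓ.Prime) {m : ℕ} (hm : ¬ ℓ ∣ m) (k : ℕ) :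
    eigSeq t e (ℓ ^ k * m) = powSeq (t ℓ) (e ℓ) k * eigSeq t e m := by
  have hm0 : m ≠ 0 := fun h => hm (h ▸ dvd_zero ℓ)
  have hcop : (ℓ ^ k).Coprime m := ((hℓ.coprime_iff_not_dvd).2 hm).pow_left k
  rw [eigSeq, eigSeq, if_neg (mul_ne_zero (pow_ne_zero _ hℓ.ne_zero) hm0), if_neg hm0,
    Nat.factorization_mul_of_coprime hcop,
    Finsupp.prod_add_index_of_disjoint hcop.disjoint_primeFactors, hℓ.factorization_pow,
    Finsupp.prod_single_index rfl]

theorem eigSeq_prime (t e : ℕ → ℤ) {ℓ : ℕ} (hℓ : ℓ.Prime) : eigSeq t e ℓ = t ℓ := by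
  have h := eigSeq_pow_mul t e hℓ hℓ.not_dvd_one 1
  rwa [pow_one, mul_one, eigSeq_one, mul_one, powSeq] at h

theorem seqEigen_eigSeq (t e : ℕ → ℤ) : SeqEigen e t (eigSeq t e) := by
  intro ℓ hℓ n
  rcases Nat.eq_zero_or_pos n with rfl | hn
  · simp [eigSeq_zero]
  obtain ⟨k, m, hm, rfl⟩ := Nat.exists_eq_pow_mul_and_not_dvd hn.ne' ℓ hℓ.ne_one
  rw [show ℓ ^ k * m * ℓ = ℓ ^ (k + 1) * m by ring, eigSeq_pow_mul t e hℓ hm,
    eigSeq_pow_mul t e hℓ hm]
  rcases k with _ | k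
  · rw [pow_zero, one_mul, if_neg hm, add_zero, powSeq, powSeq, one_mul]
  · rw [if_pos ((dvd_pow_self ℓ k.succ_ne_zero).mul_right m),
      show ℓ ^ (k + 1) * m / ℓ = ℓ ^ k * m by
        rw [pow_succ, mul_right_comm, Nat.mul_div_cancel _ hℓ.pos],
      eigSeq_pow_mul t e hℓ hm, powSeq]
    ring

theorem powSeq_congr (t e e' : ℤ) (h : (e : ZMod 3) = (e' : ZMod 3)) :
    ∀ r, (powSeq t e r : ZMod 3) = (powSeq t e' r : ZMod 3)
  | 0 => rfl
  | 1 => rfl
  | r + 2 => by
    rw [powSeq, powSeq]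
    push_cast
    rw [powSeq_congr t e e' h r, powSeq_congr t e e' h (r + 1), h]

theorem eigSeq_congr (t e e' : ℕ → ℤ) (h : ∀ p, (e p : ZMod 3) = (e' p : ZMod 3)) (n : ℕ) :
    (eigSeq t e n : ZMod 3) = (eigSeq t e' n : ZMod 3) := by
  simp only [eigSeq, Finsupp.prod]
  split_ifs
  · rfl
  · push_cast
    exact Finset.prod_congr rfl fun p _ => powSeq_congr _ _ _ (h p) _

/-- Removing the coefficients of index divisible by a prime of `T` costs a factor `∏ T` in the
level. -/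
theorem exists_depleted {N : ℕ} [NeZero N] {f : CuspForm (Gamma0 N) 2}
    (hf : f.IsNormalizedEigenform) (T : Finset ℕ) (hT : ∀ q ∈ T, q.Prime ∧ q ∣ N) :
    ∃ F : CuspForm (Gamma0 (N * ∏ q ∈ T, q)) 2,
      ∀ n, qCoeff F n = if ∃ q ∈ T, q ∣ n then 0 else qCoeff f n := by
  induction T using Finset.induction_on with
  | empty =>
    rw [Finset.prod_empty, mul_one]
    exact ⟨f, fun n => (if_neg (by simp)).symm⟩
  | @insert q T hqT ih =>
    obtain ⟨hq, hqN⟩ := hT q (Finset.mem_insert_self _ _)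
    obtain ⟨F, hF⟩ := ih fun r hr => hT r (Finset.mem_insert_of_mem hr)
    rw [Finset.prod_insert hqT]
    have hne : ∏ r ∈ T, r ≠ 0 :=
      Finset.prod_ne_zero_iff.2 fun r hr => (hT r (Finset.mem_insert_of_mem hr)).1.ne_zero
    have : NeZero (N * (q * ∏ r ∈ T, r)) :=
      ⟨mul_ne_zero (NeZero.ne N) (mul_ne_zero hq.ne_zero hne)⟩
    have h1 : N * ∏ r ∈ T, r ∣ N * (q * ∏ r ∈ T, r) := mul_dvd_mul_left N (dvd_mul_left _ q)
    have hd : q * (N * ∏ r ∈ T, r) ∣ N * (q * ∏ r ∈ T, r) := dvd_of_eq (by ring)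
    refine ⟨levelIncl h1 F + (-qCoeff f q) • levelRaise q hd F, fun n => ?_⟩
    rw [HeckeDuality.coeff_add, HeckeDuality.coeff_smul, Newforms.qCoeff_levelIncl,
      Newforms.qCoeff_levelRaise]
    by_cases hqn : q ∣ n
    · obtain ⟨m, rfl⟩ := hqn
      rw [if_pos (dvd_mul_right q m), Nat.mul_div_cancel_left _ hq.pos,
        if_pos ⟨q, Finset.mem_insert_self _ _, dvd_mul_right q m⟩, hF, hF]
      have hiff : (∃ r ∈ T, r ∣ q * m) ↔ ∃ r ∈ T, r ∣ m := by
        refine exists_congr fun r => and_congr_right fun hr => ⟨fun h => ?_, fun h => h.mul_left q⟩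
        have hr' := (hT r (Finset.mem_insert_of_mem hr)).1
        exact (hr'.dvd_mul.1 h).resolve_left fun hrq =>
          hqT (((Nat.prime_dvd_prime_iff_eq hr' hq).1 hrq) ▸ hr)
      have hmul := HeckeDuality.seqEigen_of_isNormalizedEigenform hf q hq m
      simp only [eulerWeight, if_pos hqN, zero_mul, ite_self, add_zero] at hmul
      rw [mul_comm m q] at hmul
      simp only [hiff]
      split_ifs
      · ring
      · rw [hmul]; ring
    · rw [if_neg hqn, mul_zero, add_zero, hF]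
      simp [hqn]

/-- A normalised eigenform of squarefree level `N` with eigenvalues `t` prime to `N` gives, at level
`N²`, the integral form with the eigenvalues `t` prime to `N` and `0` elsewhere. -/
theorem exists_integral_form {N : ℕ} [NeZero N] (hsq : Squarefree N)
    {f : CuspForm (Gamma0 N) 2} (hf : f.IsNormalizedEigenform) (t : ℕ → ℤ)
    (ht0 : ∀ ℓ, ℓ ∣ N → t ℓ = 0)
    (ht : ∀ ℓ, ℓ.Prime → ¬ ℓ ∣ N → qCoeff f ℓ = (t ℓ : ℂ)) :
    ∃ F : CuspForm (Gamma0 (N * N)) 2, ∀ n,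
      qCoeff F n = (eigSeq t (fun ℓ => if ℓ ∣ N then 0 else (ℓ : ℤ)) n : ℂ) := by
  have hpr : ∏ q ∈ N.primeFactors, q = N := Nat.prod_primeFactors_of_squarefree hsq
  -- deplete `f` at the primes of `N`
  obtain ⟨G, hG⟩ : ∃ G : CuspForm (Gamma0 (N * N)) 2,
      ∀ n, qCoeff G n = if ∃ q ∈ N.primeFactors, q ∣ n then 0 else qCoeff f n := by
    have h := exists_depleted hf N.primeFactors fun q hq =>
      ⟨Nat.prime_of_mem_primeFactors hq, Nat.dvd_of_mem_primeFactors hq⟩
    rwa [hpr] at h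
  refine ⟨G, fun n => ?_⟩
  set e : ℕ → ℤ := fun ℓ => if ℓ ∣ N then 0 else (ℓ : ℤ) with he
  -- the difference from the integral sequence satisfies the recursion of a form with eigenvalues
  -- `t`; it vanishes at `1`, hence everywhere
  have hseq : SeqEigen (eulerWeight N) (fun ℓ => (t ℓ : ℂ))
      (fun n => qCoeff G n - (eigSeq t e n : ℂ)) := by
    intro ℓ hℓ n
    have hi := congrArg (Int.cast : ℤ → ℂ) (seqEigen_eigSeq t e ℓ hℓ n)
    push_cast at hi
    have hw : ((e ℓ : ℤ) : ℂ) = eulerWeight N ℓ := by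
      rw [he, eulerWeight]; dsimp only; split_ifs <;> simp
    rw [hw] at hi
    suffices hg : qCoeff G (n * ℓ) + (if ℓ ∣ n then eulerWeight N ℓ * qCoeff G (n / ℓ) else 0) =
        (t ℓ : ℂ) * qCoeff G n by
      simp only [mul_sub]
      split_ifs at hg hi ⊢ <;> linear_combination hg - hi
    by_cases hℓN : ℓ ∣ N
    · rw [hG, if_pos ⟨ℓ, Nat.mem_primeFactors.2 ⟨hℓ, hℓN, NeZero.ne N⟩, dvd_mul_left ℓ n⟩,
        ht0 ℓ hℓN, eulerWeight, if_pos hℓN]
      simp
    · have hbad : ∀ m, (∃ q ∈ N.primeFactors, q ∣ m * ℓ) ↔ ∃ q ∈ N.primeFactors, q ∣ m := fun m =>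
        exists_congr fun q => and_congr_right fun hq => ⟨fun h =>
          ((Nat.prime_of_mem_primeFactors hq).dvd_mul.1 h).resolve_right fun hqℓ =>
            hℓN (((Nat.prime_dvd_prime_iff_eq (Nat.prime_of_mem_primeFactors hq) hℓ).1 hqℓ) ▸
              Nat.dvd_of_mem_primeFactors hq), fun h => h.mul_right ℓ⟩
      have hrec := HeckeDuality.seqEigen_of_isNormalizedEigenform hf ℓ hℓ n
      simp only [ht ℓ hℓ hℓN] at hrec
      -- the recursion of `f` passes to `G`, as multiplying by `ℓ ∤ N` respects depletion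
      by_cases hb : ∃ q ∈ N.primeFactors, q ∣ n
      · have g1 : qCoeff G (n * ℓ) = 0 := (hG _).trans (if_pos ((hbad n).2 hb))
        have g2 : qCoeff G n = 0 := (hG _).trans (if_pos hb)
        rw [g1, g2, mul_zero, zero_add, ite_eq_right_iff]
        intro hd
        rw [hG, if_pos ((hbad _).1 (by rwa [Nat.div_mul_cancel hd])), mul_zero]
      · have g1 : qCoeff G (n * ℓ) = qCoeff f (n * ℓ) :=
          (hG _).trans (if_neg (mt (hbad n).1 hb))
        have g2 : qCoeff G n = qCoeff f n := (hG _).trans (if_neg hb)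
        have g3 : ℓ ∣ n → qCoeff G (n / ℓ) = qCoeff f (n / ℓ) := fun hd => (hG _).trans
          (if_neg fun ⟨q, hq, hqd⟩ => hb ⟨q, hq, hqd.trans (Nat.div_dvd_of_dvd hd)⟩)
        rw [g1, g2, ← hrec]
        congr 1
        split_ifs with hd
        · rw [g3 hd]
        · rfl
  refine sub_eq_zero.1 (hseq.eq_zero ?_ ?_ n)
  · simp [eigSeq_zero, HeckeDuality.coeff_zero G]
  · rw [hG, if_neg, hf.qCoeff_one, eigSeq_one, Int.cast_one, sub_self]
    rintro ⟨q, hq, hq1⟩
    exact (Nat.prime_of_mem_primeFactors hq).not_dvd_one hq1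

theorem hasIntegralBasis (N : ℕ) [NeZero N] : CuspForm.HasIntegralBasis N := by
  refine top_le_iff.1 ((IntegralStructure.hasIntegralStructure N 2).ge.trans
    (Submodule.span_mono fun f hf => ?_))
  intro n
  obtain ⟨m, hm⟩ := (HeckeDuality.mem_intLattice_iff f).1 hf n
  exact hm ▸ Subring.mem_bot.2 ⟨m, rfl⟩

/-- A weight one type eigensystem congruent modulo `3` to the traces of a semistable curve, realised
in weight two at a level that is cube-free away from `3`. -/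
theorem exists_eigensystem_chiNegThree (W : WeierstrassCurve ℤ) (hΔ : W.Δ ≠ 0)
    (hW : W.IsSemistableModel) :
    ∃ (N : ℕ) (_ : NeZero N) (a : ℕ → ℤ),
      CuspForm.HasIntegralBasis N ∧
      FormalHecke.IsEigensystem
        (fun ℓ => if ℓ ∣ N then 0 else ((chiNegThree ℓ : ℤ) : ℤ)) a ∧
      CuspForm.IsLatticeRealized N a ∧
      (∀ q : ℕ, q.Prime → q ≠ 3 → ¬ q ^ 3 ∣ N) ∧
      ∀ ℓ : ℕ, ℓ.Prime → W.IsGoodPrimeFor ℓ → ¬ ℓ ∣ N → ℓ ≠ 3 →
        (3 : ℤ) ∣ (a ℓ - W.apOfModel ℓ) := by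
  obtain ⟨L, hL, hsq, hsupp, f, hf, hfW⟩ := isModular_of_semistable W hΔ hW
  have : NeZero L := ⟨hL.ne'⟩
  -- the form of the curve, depleted at its conductor `L`, with `χ₋₃(ℓ)` for the weight `ℓ`
  set t : ℕ → ℤ := fun ℓ => if ℓ ∣ L then 0 else W.apOfModel ℓ with ht
  obtain ⟨F, hF⟩ := exists_integral_form hsq hf t (fun ℓ h => if_pos h) fun ℓ hℓ hℓL => by
    rw [hfW ℓ hℓ (fun h => hℓL ((hsupp ℓ hℓ).2 h)) hℓL, ht]
    simp [hℓL]
  set e : ℕ → ℤ := fun ℓ => if ℓ ∣ L then 0 else chiNegThree ℓ with he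
  refine ⟨L * L, ⟨mul_ne_zero hL.ne' hL.ne'⟩, eigSeq t e, ?_, ⟨eigSeq_one t e, ?_⟩, ?_, ?_, ?_⟩
  · have : NeZero (L * L) := ⟨mul_ne_zero hL.ne' hL.ne'⟩
    exact hasIntegralBasis (L * L)
  · intro ℓ hℓ n
    have h := seqEigen_eigSeq t e ℓ hℓ n
    have hiff : ℓ ∣ L * L ↔ ℓ ∣ L := by rw [hℓ.dvd_mul, or_self_iff]
    rw [mul_comm n ℓ] at h
    rw [eigSeq_prime t e hℓ]
    simp only [hiff]
    show _ + e ℓ * _ = _
    rwa [mul_ite, mul_zero]
  · refine ⟨F, fun n => Subring.mem_bot.2 ⟨_, (hF n).symm⟩,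
      eigSeq t fun ℓ => if ℓ ∣ L then 0 else (ℓ : ℤ), fun n => (hF n).symm, fun n => ?_⟩
    have h1 : (3 : ℤ) ∣ eigSeq t (fun ℓ => if ℓ ∣ L then 0 else (ℓ : ℤ)) n - eigSeq t e n := by
      refine (ZMod.intCast_eq_intCast_iff_dvd_sub _ _ 3).1 (eigSeq_congr t e _ (fun p => ?_) n)
      rw [he]
      dsimp only
      split_ifs
      · rfl
      · exact (ZMod.intCast_eq_intCast_iff_dvd_sub _ _ 3).2 (HeckeDuality.chiNegThree_congr p)
    have h2 := HeckeDuality.bridgeProduct_congr (eigSeq t e) n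
    simpa using dvd_sub h1 h2
  · intro q hq _ h
    have h3 := (hq.pow_dvd_iff_le_factorization (mul_ne_zero hL.ne' hL.ne')).1 h
    rw [Nat.factorization_mul hL.ne' hL.ne', Finsupp.add_apply] at h3
    have := hsq.natFactorization_le_one q
    omega
  · intro ℓ hℓ _ hℓN _
    rw [eigSeq_prime t e hℓ, ht]
    dsimp only
    rw [if_neg fun h => hℓN (h.mul_left L), sub_self]
    exact dvd_zero _

end Fermat.Agent.AllSemistable
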